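import Mathlib

set_option autoImplicit false

namespace Fermat.Agent.S22

open scoped MatrixGroups

/-- `SL(2, ℤ)` is finitely generated (by `S` and `T`). -/
instance instGroupFGSL2Z : Group.FG SL(2, ℤ) := by
  rw [Group.fg_iff]
  exact ⟨{ModularGroup.S, ModularGroup.T}, SpecialLinearGroup.SL2Z_generators, by simp⟩

/-- `Γ₀(N)` is finitely generated (Schreier). -/
theorem gamma0_fg (N : ℕ) [NeZero N] : (CongruenceSubgroup.Gamma0 N).FG := by
  rw [← Group.fg_iff_subgroup_fg]
  exact Subgroup.fg_of_index_ne_zero _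

/-- Any finite index subgroup of `SL(2, ℤ)` is finitely generated. -/
theorem fg_of_finiteIndex (Γ : Subgroup SL(2, ℤ)) [Γ.FiniteIndex] : Γ.FG := by
  rw [← Group.fg_iff_subgroup_fg]
  exact Subgroup.fg_of_index_ne_zero _

section Cocycle

variable {G X W : Type*} [Group G] [MulAction G X] [AddCommGroup W]

/-- The value at `1` of a cocycle vanishes. -/
theorem cocycle_one (H : Subgroup G) (lam : G → X → W)
    (hcoc : ∀ g ∈ H, ∀ h ∈ H, ∀ v, lam (g * h) v = lam g (h • v) + lam h v) (v : X) :
    lam 1 v = 0 := by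
  have h := hcoc 1 H.one_mem 1 H.one_mem v
  rw [one_mul, one_smul] at h
  exact left_eq_add.mp h

/-- The value of a cocycle at an inverse. -/
theorem cocycle_inv (H : Subgroup G) (lam : G → X → W)
    (hcoc : ∀ g ∈ H, ∀ h ∈ H, ∀ v, lam (g * h) v = lam g (h • v) + lam h v)
    {g : G} (hg : g ∈ H) (w : X) :
    lam g⁻¹ w = - lam g (g⁻¹ • w) := by
  have h := hcoc g⁻¹ (H.inv_mem hg) g hg (g⁻¹ • w)
  rw [inv_mul_cancel, cocycle_one H lam hcoc, smul_inv_smul] at h
  exact eq_neg_of_add_eq_zero_left h.symm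

/-- If `lam` is a cocycle on the subgroup `H = closure S` and `Λ'` is an additive subgroup
containing all values `lam s v` for `s ∈ S`, then `Λ'` contains all `lam g v`, `g ∈ H`. -/
theorem cocycle_mem_of_generators (S : Set G) (lam : G → X → W)
    (hcoc : ∀ g ∈ Subgroup.closure S, ∀ h ∈ Subgroup.closure S, ∀ v,
      lam (g * h) v = lam g (h • v) + lam h v)
    (Λ' : AddSubgroup W) (hS : ∀ s ∈ S, ∀ v, lam s v ∈ Λ')
    {g : G} (hg : g ∈ Subgroup.closure S) (v : X) : lam g v ∈ Λ' := by
  induction hg using Subgroup.closure_induction generalizing v with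
  | mem s hs => exact hS s hs v
  | one =>
    rw [cocycle_one _ lam hcoc]
    exact Λ'.zero_mem
  | mul g h hg hh ihg ihh =>
    rw [hcoc g hg h hh v]
    exact Λ'.add_mem (ihg _) (ihh _)
  | inv g hg ih =>
    rw [cocycle_inv _ lam hcoc hg]
    exact Λ'.neg_mem (ih _)

/-- **Finite generation from a cocycle.** Let `H` be a finitely generated subgroup of `G`,
`lam : G → X → W` a cocycle on `H`, and suppose that for each `g ∈ H` the values `lam g v`
(`v : X`) all lie in the `ℤ`-span of a finite set. Then the `ℤ`-span of all values `lam g v`,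
`g ∈ H`, is finitely generated. -/
theorem span_cocycle_fg (H : Subgroup G) (hH : H.FG) (lam : G → X → W)
    (hcoc : ∀ g ∈ H, ∀ h ∈ H, ∀ v, lam (g * h) v = lam g (h • v) + lam h v)
    (hfin : ∀ g ∈ H, ∃ E : Finset W, ∀ v, lam g v ∈ Submodule.span ℤ (E : Set W)) :
    (Submodule.span ℤ {w : W | ∃ g ∈ H, ∃ v, w = lam g v}).FG := by
  classical
  obtain ⟨S, rfl⟩ := hH
  choose! E hE using hfin
  set E' : Finset W := S.biUnion E with hE'
  have hle : Submodule.span ℤ {w : W | ∃ g ∈ Subgroup.closure (S : Set G), ∃ v, w = lam g v}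
      ≤ Submodule.span ℤ (E' : Set W) := by
    rw [Submodule.span_le]
    rintro w ⟨g, hg, v, rfl⟩
    have := cocycle_mem_of_generators (S : Set G) lam hcoc
      (Submodule.span ℤ (E' : Set W)).toAddSubgroup ?_ hg v
    · exact this
    · intro s hs v
      have hs' : s ∈ Subgroup.closure (S : Set G) := Subgroup.subset_closure hs
      refine Submodule.span_mono ?_ (hE s hs' v)
      intro x hx
      rw [hE', Finset.coe_biUnion]
      exact Set.mem_biUnion hs hx
  exact Submodule.FG.of_le (Submodule.fg_span E'.finite_toSet) hle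

end Cocycle

end Fermat.Agent.S22
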