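/-
S22 helper: primitives on the upper half plane that vanish at `i∞`.

For `φ : ℂ → ℂ` holomorphic on the open upper half plane `UH` we construct a primitive on `UH`
(glueing the primitives on the discs `ball (R i) R` that Mathlib provides), and when `φ` decays
exponentially at `i∞` (locally uniformly in the real part) we normalise it so that it tends to `0`
up every vertical ray.  `primC φ` is this normalised primitive (for functions on `ℂ`); `primInfty` is the version for
functions on `ℍ`, defined as the vertical integral.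
-/
import Mathlib

set_option autoImplicit false

namespace Fermat.Agent.S22

open Complex Set Metric Filter Topology MeasureTheory

/-- The open upper half plane as a subset of `ℂ`. -/
def UH : Set ℂ := {z : ℂ | 0 < z.im}

lemma mem_UH {z : ℂ} : z ∈ UH ↔ 0 < z.im := Iff.rfl

lemma isOpen_UH : IsOpen UH := isOpen_lt continuous_const Complex.continuous_im

lemma convex_UH : Convex ℝ UH := convex_halfSpace_im_gt 0

lemma I_mem_UH : I ∈ UH := by simp [UH]

lemma add_mul_I_mem_UH {z : ℂ} (hz : z ∈ UH) {t : ℝ} (ht : 0 ≤ t) : z + t * I ∈ UH := by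
  have : 0 < z.im := hz
  simp only [UH, mem_ofPred_eq, add_im, mul_im, ofReal_re, I_im, mul_one, ofReal_im, I_re, mul_zero,
    add_zero]
  linarith

/-- The disc of radius `n+1` centred at `(n+1) i`. -/
def disc (n : ℕ) : Set ℂ := ball (((n : ℝ) + 1 : ℝ) * I) ((n : ℝ) + 1)

lemma mem_disc_iff {n : ℕ} {z : ℂ} :
    z ∈ disc n ↔ z.re ^ 2 + z.im ^ 2 < 2 * ((n : ℝ) + 1) * z.im := by
  have hn : (0 : ℝ) < (n : ℝ) + 1 := by positivity
  rw [disc, mem_ball, dist_eq_re_im]
  simp only [mul_re, ofReal_re, I_re, mul_zero, ofReal_im, I_im, mul_one, sub_self, sub_zero,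
    mul_im, add_zero]
  rw [Real.sqrt_lt' hn]
  constructor <;> intro h <;> nlinarith [h]

lemma disc_subset_UH (n : ℕ) : disc n ⊆ UH := by
  intro z hz
  rw [mem_disc_iff] at hz
  have hn : (0 : ℝ) < (n : ℝ) + 1 := by positivity
  rw [mem_UH]
  by_contra h
  rw [not_lt] at h
  nlinarith [sq_nonneg z.re, sq_nonneg z.im]

lemma disc_mono {m n : ℕ} (h : m ≤ n) : disc m ⊆ disc n := by
  intro z hz
  have hz0 : 0 < z.im := disc_subset_UH m hz
  rw [mem_disc_iff] at hz ⊢
  have : (m : ℝ) ≤ n := by exact_mod_cast h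
  nlinarith

lemma exists_mem_disc {z : ℂ} (hz : z ∈ UH) : ∃ n : ℕ, z ∈ disc n := by
  have hz0 : 0 < z.im := hz
  obtain ⟨n, hn⟩ := exists_nat_gt ((z.re ^ 2 + z.im ^ 2) / (2 * z.im))
  refine ⟨n, mem_disc_iff.mpr ?_⟩
  rw [div_lt_iff₀ (by positivity)] at hn
  nlinarith

lemma isOpen_disc (n : ℕ) : IsOpen (disc n) := isOpen_ball

lemma I_mem_disc (n : ℕ) : I ∈ disc n := by
  rw [mem_disc_iff]
  have hn : (0 : ℝ) ≤ (n : ℝ) := by positivity
  simp
  linarith

/-- A holomorphic function on the upper half plane has a primitive there. -/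
theorem exists_primitive_UH {φ : ℂ → ℂ} (hφ : DifferentiableOn ℂ φ UH) :
    ∃ Φ : ℂ → ℂ, ∀ z ∈ UH, HasDerivAt Φ (φ z) z := by
  classical
  have h1 : ∀ n : ℕ, ∃ g : ℂ → ℂ, g I = 0 ∧ ∀ z ∈ disc n, HasDerivAt g (φ z) z := fun n =>
    ((hφ.mono (disc_subset_UH n)).isExactOn_ball).with_val_at I 0
  choose g hgI hg using h1
  -- compatibility
  have hcompat : ∀ m n : ℕ, m ≤ n → ∀ z ∈ disc m, g m z = g n z := by
    intro m n hmn z hz
    have hd : ∀ w ∈ disc m, HasDerivAt (fun w => g m w - g n w) 0 w := fun w hw => by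
      have h := (hg m w hw).sub (hg n w (disc_mono hmn hw))
      rw [sub_self] at h
      exact h
    have hconst := IsOpen.is_const_of_deriv_eq_zero (f := fun w => g m w - g n w)
      (isOpen_disc m) (convex_ball _ _).isPreconnected
      (fun w hw => (hd w hw).differentiableAt.differentiableWithinAt)
      (fun w hw => (hd w hw).deriv) hz (I_mem_disc m)
    simp only [hgI, sub_self] at hconst
    exact sub_eq_zero.mp hconst
  let N : ℂ → ℕ := fun z => if h : ∃ n, z ∈ disc n then Nat.find h else 0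
  refine ⟨fun z => g (N z) z, fun z hz => ?_⟩
  obtain ⟨n, hn⟩ := exists_mem_disc hz
  have hev : (fun w => g (N w) w) =ᶠ[𝓝 z] g n := by
    filter_upwards [(isOpen_disc n).mem_nhds hn] with w hw
    have hex : ∃ k, w ∈ disc k := ⟨n, hw⟩
    have hNw : N w = Nat.find hex := dif_pos hex
    have hle : N w ≤ n := hNw ▸ Nat.find_min' hex hw
    have hmem : w ∈ disc (N w) := hNw ▸ Nat.find_spec hex
    exact hcompat _ _ hle w hmem
  exact (hg n z hn).congr_of_eventuallyEq hev

/-- Exponential decay at `i∞`, locally uniformly in the real part. -/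
def DecayAtInfty (φ : ℂ → ℂ) : Prop :=
  ∀ B : ℝ, ∃ c : ℝ, 0 < c ∧ ∃ C A : ℝ, ∀ z : ℂ, |z.re| ≤ B → A ≤ z.im →
    ‖φ z‖ ≤ C * Real.exp (-c * z.im)

lemma continuousOn_ray {φ : ℂ → ℂ} (hφ : DifferentiableOn ℂ φ UH) {z : ℂ} (hz : z ∈ UH) :
    ContinuousOn (fun t : ℝ => φ (z + t * I)) (Ici 0) := by
  have h1 : ContinuousOn (fun t : ℝ => z + (t : ℂ) * I) (Ici 0) := by fun_prop
  exact hφ.continuousOn.comp h1 (fun t ht => add_mul_I_mem_UH hz ht)

lemma integrableOn_ray {φ : ℂ → ℂ} (hφ : DifferentiableOn ℂ φ UH) (hdec : DecayAtInfty φ)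
    {z : ℂ} (hz : z ∈ UH) : IntegrableOn (fun t : ℝ => φ (z + t * I)) (Ioi 0) := by
  obtain ⟨c, hc, C, A, hCA⟩ := hdec |z.re|
  have hcont := continuousOn_ray hφ hz
  set T : ℝ := max 0 (A - z.im) with hT
  have hT0 : 0 ≤ T := le_max_left _ _
  have h1 : IntegrableOn (fun t : ℝ => φ (z + t * I)) (Ioc 0 T) :=
    ((hcont.mono Icc_subset_Ici_self).integrableOn_Icc).mono_set Ioc_subset_Icc_self
  have h2 : IntegrableOn (fun t : ℝ => φ (z + t * I)) (Ioi T) := by
    have hg : IntegrableOn (fun t : ℝ => C * Real.exp (-c * z.im) * Real.exp (-c * t)) (Ioi T) :=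
      (exp_neg_integrableOn_Ioi T hc).const_mul _
    refine Integrable.mono' hg ?_ ?_
    · exact (hcont.mono (fun t ht => le_trans hT0 (le_of_lt ht))).aestronglyMeasurable
        measurableSet_Ioi
    · refine (ae_restrict_iff' measurableSet_Ioi).mpr (Eventually.of_forall fun t ht => ?_)
      have ht' : T < t := ht
      have hA : A ≤ (z + t * I).im := by
        have : A - z.im ≤ T := le_max_right _ _
        simp
        linarith
      have hre : |(z + t * I).re| ≤ |z.re| := by simp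
      have := hCA (z + t * I) hre hA
      have him : (z + t * I).im = z.im + t := by simp
      rw [him] at this
      calc ‖φ (z + t * I)‖ ≤ C * Real.exp (-c * (z.im + t)) := this
        _ = C * Real.exp (-c * z.im) * Real.exp (-c * t) := by
          rw [mul_assoc, ← Real.exp_add]; ring_nf
  have := h1.union h2
  rwa [Ioc_union_Ioi_eq_Ioi hT0] at this

lemma hasDerivAt_ray {Φ φ : ℂ → ℂ} {z : ℂ} (hz : z ∈ UH)
    (hΦ : ∀ w ∈ UH, HasDerivAt Φ (φ w) w) {t : ℝ} (ht : 0 ≤ t) :
    HasDerivAt (fun s : ℝ => Φ (z + s * I)) (I * φ (z + t * I)) t := by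
  have h1 : HasDerivAt (fun s : ℂ => z + s * I) I (t : ℂ) := by
    simpa using ((hasDerivAt_id (t : ℂ)).mul_const I).const_add z
  have h2 := (hΦ _ (add_mul_I_mem_UH hz ht)).comp (t : ℂ) h1
  have h3 := h2.comp_ofReal
  simpa [mul_comm] using h3

/-- Along every vertical ray a primitive of a decaying function converges. -/
lemma tendsto_ray_limUnder {Φ φ : ℂ → ℂ} (hφ : DifferentiableOn ℂ φ UH) (hdec : DecayAtInfty φ)
    (hΦ : ∀ w ∈ UH, HasDerivAt Φ (φ w) w) {z : ℂ} (hz : z ∈ UH) :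
    Tendsto (fun t : ℝ => Φ (z + t * I)) atTop
      (𝓝 (limUnder atTop (fun t : ℝ => Φ (z + t * I)))) :=
  tendsto_limUnder_of_hasDerivAt_of_integrableOn_Ioi (a := 0)
    (fun _ ht => hasDerivAt_ray hz hΦ (le_of_lt ht))
    ((integrableOn_ray hφ hdec hz).const_mul I)

/-- The difference of a primitive along two vertical rays tends to zero. -/
lemma tendsto_ray_sub {Φ φ : ℂ → ℂ} (hdec : DecayAtInfty φ)
    (hΦ : ∀ w ∈ UH, HasDerivAt Φ (φ w) w) {z z' : ℂ} (hz : z ∈ UH) (hz' : z' ∈ UH) :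
    Tendsto (fun t : ℝ => Φ (z + t * I) - Φ (z' + t * I)) atTop (𝓝 0) := by
  obtain ⟨M, hMz, hMz'⟩ : ∃ M : ℝ, |z.re| ≤ M ∧ |z'.re| ≤ M :=
    ⟨max |z.re| |z'.re|, le_max_left _ _, le_max_right _ _⟩
  obtain ⟨c, hc, C, A, hCA⟩ := hdec M
  -- bound on the horizontal segment at height `t`
  have hbound : ∀ t : ℝ, max A 0 ≤ t →
      ‖Φ (z + t * I) - Φ (z' + t * I)‖ ≤ |C| * Real.exp (-c * t) * ‖z - z'‖ := by
    intro t ht
    have ht0 : 0 ≤ t := le_trans (le_max_right _ _) ht
    have htA : A ≤ t := le_trans (le_max_left _ _) ht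
    set S : Set ℂ := {w : ℂ | |w.re| ≤ M ∧ t < w.im} with hS
    have hSconv : Convex ℝ S := by
      have h1 : Convex ℝ {w : ℂ | |w.re| ≤ M} := by
        have : {w : ℂ | |w.re| ≤ M} = {w : ℂ | -M ≤ w.re} ∩ {w : ℂ | w.re ≤ M} := by
          ext w; simp [abs_le]
        rw [this]
        exact (convex_halfSpace_re_ge _).inter (convex_halfSpace_re_le _)
      exact h1.inter (convex_halfSpace_im_gt t)
    have hSUH : S ⊆ UH := fun w hw => lt_of_le_of_lt ht0 hw.2
    have hzS : z + t * I ∈ S := by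
      refine ⟨by simpa using hMz, ?_⟩
      have : 0 < z.im := hz
      simp; linarith
    have hz'S : z' + t * I ∈ S := by
      refine ⟨by simpa using hMz', ?_⟩
      have : 0 < z'.im := hz'
      simp; linarith
    have hder : ∀ w ∈ S, HasDerivWithinAt Φ (φ w) S w := fun w hw =>
      (hΦ w (hSUH hw)).hasDerivWithinAt
    have hnorm : ∀ w ∈ S, ‖φ w‖ ≤ |C| * Real.exp (-c * t) := by
      intro w hw
      have h1 := hCA w hw.1 (le_trans htA hw.2.le)
      calc ‖φ w‖ ≤ C * Real.exp (-c * w.im) := h1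
        _ ≤ |C| * Real.exp (-c * w.im) :=
          mul_le_mul_of_nonneg_right (le_abs_self C) (Real.exp_pos _).le
        _ ≤ |C| * Real.exp (-c * t) := by
          apply mul_le_mul_of_nonneg_left _ (abs_nonneg C)
          apply Real.exp_le_exp.mpr
          have := hw.2
          nlinarith
    have := hSconv.norm_image_sub_le_of_norm_hasDerivWithin_le hder hnorm hz'S hzS
    simpa using this
  rw [tendsto_zero_iff_norm_tendsto_zero]
  have hlim : Tendsto (fun t : ℝ => |C| * Real.exp (-c * t) * ‖z - z'‖) atTop (𝓝 0) := by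
    have h1 : Tendsto (fun t : ℝ => Real.exp (-c * t)) atTop (𝓝 0) := by
      have : Tendsto (fun t : ℝ => -c * t) atTop atBot := by
        simpa using tendsto_id.const_mul_atTop_of_neg (neg_neg_of_pos hc)
      exact Real.tendsto_exp_atBot.comp this
    simpa using (h1.const_mul |C|).mul_const ‖z - z'‖
  refine squeeze_zero' (Eventually.of_forall fun t => norm_nonneg _) ?_ hlim
  filter_upwards [eventually_ge_atTop (max A 0)] with t ht
  exact hbound t ht

open Classical in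
/-- The primitive of `φ` on the upper half plane that tends to `0` up the vertical rays
(junk value `0` when `φ` has no primitive on `UH`). -/
noncomputable def primC (φ : ℂ → ℂ) : ℂ → ℂ :=
  if h : ∃ Φ : ℂ → ℂ, ∀ z ∈ UH, HasDerivAt Φ (φ z) z then
    fun z => Classical.choose h z -
      limUnder atTop (fun t : ℝ => Classical.choose h (I + t * I))
  else 0

theorem hasDerivAt_primC {φ : ℂ → ℂ} (hφ : DifferentiableOn ℂ φ UH) {z : ℂ} (hz : z ∈ UH) :
    HasDerivAt (primC φ) (φ z) z := by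
  have h := exists_primitive_UH hφ
  have : primC φ = fun z => Classical.choose h z -
      limUnder atTop (fun t : ℝ => Classical.choose h (I + t * I)) := dif_pos h
  rw [this]
  exact (Classical.choose_spec h z hz).sub_const _

theorem tendsto_primC {φ : ℂ → ℂ} (hφ : DifferentiableOn ℂ φ UH) (hdec : DecayAtInfty φ)
    {z : ℂ} (hz : z ∈ UH) :
    Tendsto (fun t : ℝ => primC φ (z + t * I)) atTop (𝓝 0) := by
  have h := exists_primitive_UH hφ
  have hdef : primC φ = fun z => Classical.choose h z -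
      limUnder atTop (fun t : ℝ => Classical.choose h (I + t * I)) := dif_pos h
  have hΦ := Classical.choose_spec h
  set Φ := Classical.choose h
  have h1 := tendsto_ray_limUnder hφ hdec hΦ I_mem_UH
  have h2 := tendsto_ray_sub hdec hΦ hz I_mem_UH
  have h3 := (h2.add h1).sub_const (limUnder atTop (fun t : ℝ => Φ (I + t * I)))
  rw [hdef]
  simpa using h3

/-- Uniqueness: a primitive tending to `0` up one vertical ray is `primC`. -/
theorem eq_primC_of_hasDerivAt {φ : ℂ → ℂ} (hφ : DifferentiableOn ℂ φ UH)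
    (hdec : DecayAtInfty φ) {G : ℂ → ℂ} (hG : ∀ z ∈ UH, HasDerivAt G (φ z) z) {z₀ : ℂ}
    (hz₀ : z₀ ∈ UH) (hlim : Tendsto (fun t : ℝ => G (z₀ + t * I)) atTop (𝓝 0)) :
    ∀ z ∈ UH, G z = primC φ z := by
  have hd : ∀ w ∈ UH, HasDerivAt (fun w => G w - primC φ w) 0 w := fun w hw => by
    have h := (hG w hw).sub (hasDerivAt_primC hφ hw)
    rw [sub_self] at h
    exact h
  have hconst : ∀ w ∈ UH, G w - primC φ w = G z₀ - primC φ z₀ := fun w hw =>
    IsOpen.is_const_of_deriv_eq_zero (f := fun w => G w - primC φ w)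
      isOpen_UH convex_UH.isPreconnected
      (fun w hw => (hd w hw).differentiableAt.differentiableWithinAt)
      (fun w hw => (hd w hw).deriv) hw hz₀
  have h0 : G z₀ - primC φ z₀ = 0 := by
    have h1 : Tendsto (fun t : ℝ => G (z₀ + t * I) - primC φ (z₀ + t * I)) atTop
        (𝓝 (0 - 0)) := hlim.sub (tendsto_primC hφ hdec hz₀)
    have h2 : Tendsto (fun t : ℝ => G (z₀ + t * I) - primC φ (z₀ + t * I)) atTop
        (𝓝 (G z₀ - primC φ z₀)) := by
      refine tendsto_const_nhds.congr' ?_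
      filter_upwards [eventually_ge_atTop 0] with t ht
      exact (hconst _ (add_mul_I_mem_UH hz₀ ht)).symm
    rw [sub_zero] at h1
    exact tendsto_nhds_unique h2 h1
  intro z hz
  have := hconst z hz
  rw [h0] at this
  exact sub_eq_zero.mp this

/-! ### Closure properties of the decay predicate -/

lemma DecayAtInfty.zero : DecayAtInfty (fun _ => (0 : ℂ)) := fun _ =>
  ⟨1, one_pos, 0, 0, fun z _ _ => by simp⟩

lemma DecayAtInfty.const_mul {φ : ℂ → ℂ} (h : DecayAtInfty φ) (a : ℂ) :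
    DecayAtInfty (fun z => a * φ z) := by
  intro B
  obtain ⟨c, hc, C, A, hCA⟩ := h B
  refine ⟨c, hc, ‖a‖ * C, A, fun z hz hA => ?_⟩
  rw [norm_mul, mul_assoc]
  exact mul_le_mul_of_nonneg_left (hCA z hz hA) (norm_nonneg a)

lemma DecayAtInfty.add {φ ψ : ℂ → ℂ} (h : DecayAtInfty φ) (h' : DecayAtInfty ψ) :
    DecayAtInfty (fun z => φ z + ψ z) := by
  intro B
  obtain ⟨c, hc, C, A, hCA⟩ := h B
  obtain ⟨c', hc', C', A', hCA'⟩ := h' B
  refine ⟨min c c', lt_min hc hc', |C| + |C'|, max (max A A') 0, fun z hz hA => ?_⟩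
  have hA1 : A ≤ z.im := le_trans (le_trans (le_max_left _ _) (le_max_left _ _)) hA
  have hA2 : A' ≤ z.im := le_trans (le_trans (le_max_right _ _) (le_max_left _ _)) hA
  have hA3 : 0 ≤ z.im := le_trans (le_max_right _ _) hA
  have e1 : Real.exp (-c * z.im) ≤ Real.exp (-(min c c') * z.im) := by
    apply Real.exp_le_exp.mpr
    have : min c c' ≤ c := min_le_left _ _
    nlinarith
  have e2 : Real.exp (-c' * z.im) ≤ Real.exp (-(min c c') * z.im) := by
    apply Real.exp_le_exp.mpr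
    have : min c c' ≤ c' := min_le_right _ _
    nlinarith
  calc ‖φ z + ψ z‖ ≤ ‖φ z‖ + ‖ψ z‖ := norm_add_le _ _
    _ ≤ C * Real.exp (-c * z.im) + C' * Real.exp (-c' * z.im) :=
      add_le_add (hCA z hz hA1) (hCA' z hz hA2)
    _ ≤ |C| * Real.exp (-c * z.im) + |C'| * Real.exp (-c' * z.im) := by
      gcongr <;> exact le_abs_self _
    _ ≤ |C| * Real.exp (-(min c c') * z.im) + |C'| * Real.exp (-(min c c') * z.im) := by
      gcongr
    _ = (|C| + |C'|) * Real.exp (-(min c c') * z.im) := by ring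

lemma DecayAtInfty.sum {ι : Type*} (s : Finset ι) {φ : ι → ℂ → ℂ}
    (h : ∀ i ∈ s, DecayAtInfty (φ i)) : DecayAtInfty (fun z => ∑ i ∈ s, φ i z) := by
  classical
  induction s using Finset.induction_on with
  | empty => simpa using DecayAtInfty.zero
  | insert i s hi ih =>
    have h1 : DecayAtInfty (φ i) := h i (Finset.mem_insert_self i s)
    have h2 := ih (fun j hj => h j (Finset.mem_insert_of_mem hj))
    have := h1.add h2
    refine (fun B => ?_)
    obtain ⟨c, hc, C, A, hCA⟩ := this B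
    exact ⟨c, hc, C, A, fun z hz hA => by
      show ‖∑ j ∈ insert i s, φ j z‖ ≤ _
      rw [Finset.sum_insert hi]; exact hCA z hz hA⟩

/-- A function decaying uniformly in the real part times a function of polynomial growth
decays in the sense of `DecayAtInfty`. -/
lemma DecayAtInfty.of_mul_polyGrowth {f P : ℂ → ℂ} {a : ℝ} (ha : 0 < a)
    (hf : ∃ C A : ℝ, ∀ z : ℂ, A ≤ z.im → ‖f z‖ ≤ C * Real.exp (-a * z.im))
    (hP : ∃ (K : ℝ) (m : ℕ), ∀ z : ℂ, 0 < z.im → ‖P z‖ ≤ K * (1 + ‖z‖) ^ m) :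
    DecayAtInfty (fun z => f z * P z) := by
  obtain ⟨C, A, hCA⟩ := hf
  obtain ⟨K, m, hK⟩ := hP
  intro B
  have ha2 : 0 < a / 2 := by positivity
  refine ⟨a / 2, ha2, |C| * (|K| * ((2 / a) ^ m * (m.factorial : ℝ) *
    Real.exp (a / 2 * (1 + |B|)))), max A 1, fun z hz hA => ?_⟩
  have hA1 : A ≤ z.im := le_trans (le_max_left _ _) hA
  have hA2 : 1 ≤ z.im := le_trans (le_max_right _ _) hA
  have hz0 : 0 < z.im := by linarith
  have hnz : ‖z‖ ≤ |B| + z.im := by
    calc ‖z‖ ≤ |z.re| + |z.im| := Complex.norm_le_abs_re_add_abs_im z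
      _ ≤ |B| + z.im := by
        rw [abs_of_pos hz0]
        have : |z.re| ≤ |B| := le_trans hz (le_abs_self B)
        linarith
  set y := z.im with hy
  have hpoly : (1 + ‖z‖) ^ m ≤ (2 / a) ^ m * (m.factorial : ℝ) *
      Real.exp (a / 2 * (1 + |B|)) * Real.exp (a / 2 * y) := by
    have h1 : (1 + ‖z‖) ^ m ≤ (1 + |B| + y) ^ m := by
      apply pow_le_pow_left₀ (by positivity)
      linarith
    have hx : 0 ≤ a / 2 * (1 + |B| + y) := by positivity
    have h2 := Real.pow_div_factorial_le_exp _ hx m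
    have hfac : (0 : ℝ) < (m.factorial : ℝ) := by exact_mod_cast Nat.factorial_pos m
    rw [div_le_iff₀ hfac] at h2
    have h3 : (1 + |B| + y) ^ m = (2 / a) ^ m * (a / 2 * (1 + |B| + y)) ^ m := by
      rw [← mul_pow]
      congr 1
      field_simp
    calc (1 + ‖z‖) ^ m ≤ (1 + |B| + y) ^ m := h1
      _ = (2 / a) ^ m * (a / 2 * (1 + |B| + y)) ^ m := h3
      _ ≤ (2 / a) ^ m * (Real.exp (a / 2 * (1 + |B| + y)) * (m.factorial : ℝ)) := by
        gcongr
      _ = (2 / a) ^ m * (m.factorial : ℝ) * Real.exp (a / 2 * (1 + |B|)) *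
          Real.exp (a / 2 * y) := by
        rw [show a / 2 * (1 + |B| + y) = a / 2 * (1 + |B|) + a / 2 * y by ring, Real.exp_add]
        ring
  have hexp : Real.exp (-a * y) * Real.exp (a / 2 * y) = Real.exp (-(a / 2) * y) := by
    rw [← Real.exp_add]; congr 1; ring
  have hE : 0 ≤ (2 / a) ^ m * (m.factorial : ℝ) * Real.exp (a / 2 * (1 + |B|)) := by positivity
  calc ‖f z * P z‖ = ‖f z‖ * ‖P z‖ := norm_mul _ _
    _ ≤ (|C| * Real.exp (-a * y)) * (|K| * ((2 / a) ^ m * (m.factorial : ℝ) *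
        Real.exp (a / 2 * (1 + |B|)) * Real.exp (a / 2 * y))) := by
      apply mul_le_mul _ _ (norm_nonneg _) (by positivity)
      · calc ‖f z‖ ≤ C * Real.exp (-a * y) := hCA z hA1
          _ ≤ |C| * Real.exp (-a * y) :=
            mul_le_mul_of_nonneg_right (le_abs_self C) (Real.exp_pos _).le
      · calc ‖P z‖ ≤ K * (1 + ‖z‖) ^ m := hK z hz0
          _ ≤ |K| * (1 + ‖z‖) ^ m :=
            mul_le_mul_of_nonneg_right (le_abs_self K) (by positivity)
          _ ≤ _ := mul_le_mul_of_nonneg_left hpoly (abs_nonneg K)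
    _ = |C| * (|K| * ((2 / a) ^ m * (m.factorial : ℝ) * Real.exp (a / 2 * (1 + |B|)))) *
        (Real.exp (-a * y) * Real.exp (a / 2 * y)) := by ring
    _ = _ := by rw [hexp]

/-! ### Linearity of `primC` -/

theorem primC_add {φ ψ : ℂ → ℂ} (hφ : DifferentiableOn ℂ φ UH) (hψ : DifferentiableOn ℂ ψ UH)
    (dφ : DecayAtInfty φ) (dψ : DecayAtInfty ψ) {z : ℂ} (hz : z ∈ UH) :
    primC (fun w => φ w + ψ w) z = primC φ z + primC ψ z := by
  refine (eq_primC_of_hasDerivAt (φ := fun w => φ w + ψ w) (hφ.add hψ) (dφ.add dψ)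
    (G := fun w => primC φ w + primC ψ w)
    (fun w hw => (hasDerivAt_primC hφ hw).add (hasDerivAt_primC hψ hw)) hz ?_ z hz).symm
  simpa using (tendsto_primC hφ dφ hz).add (tendsto_primC hψ dψ hz)

theorem primC_const_mul {φ : ℂ → ℂ} (hφ : DifferentiableOn ℂ φ UH) (dφ : DecayAtInfty φ)
    (a : ℂ) {z : ℂ} (hz : z ∈ UH) :
    primC (fun w => a * φ w) z = a * primC φ z := by
  refine (eq_primC_of_hasDerivAt (φ := fun w => a * φ w) (hφ.const_mul a) (dφ.const_mul a)
    (G := fun w => a * primC φ w)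
    (fun w hw => (hasDerivAt_primC hφ hw).const_mul a) hz ?_ z hz).symm
  simpa using (tendsto_primC hφ dφ hz).const_mul a

theorem primC_zero {z : ℂ} (hz : z ∈ UH) : primC (fun _ => (0 : ℂ)) z = 0 := by
  refine (eq_primC_of_hasDerivAt (φ := fun _ => (0 : ℂ)) (differentiableOn_const 0)
    DecayAtInfty.zero (G := fun _ => (0 : ℂ)) (fun w _ => hasDerivAt_const w 0) hz ?_ z hz).symm
  exact tendsto_const_nhds

theorem primC_sum {ι : Type*} (s : Finset ι) {φ : ι → ℂ → ℂ}
    (hφ : ∀ i ∈ s, DifferentiableOn ℂ (φ i) UH) (dφ : ∀ i ∈ s, DecayAtInfty (φ i))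
    {z : ℂ} (hz : z ∈ UH) :
    primC (fun w => ∑ i ∈ s, φ i w) z = ∑ i ∈ s, primC (φ i) z := by
  classical
  induction s using Finset.induction_on with
  | empty => simpa using primC_zero hz
  | insert i s hi ih =>
    have h1 := hφ i (Finset.mem_insert_self i s)
    have d1 := dφ i (Finset.mem_insert_self i s)
    have h2 : DifferentiableOn ℂ (fun w => ∑ j ∈ s, φ j w) UH :=
      DifferentiableOn.fun_sum (fun j hj => hφ j (Finset.mem_insert_of_mem hj))
    have d2 : DecayAtInfty (fun w => ∑ j ∈ s, φ j w) :=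
      DecayAtInfty.sum s (fun j hj => dφ j (Finset.mem_insert_of_mem hj))
    have e : (fun w => ∑ j ∈ insert i s, φ j w) = fun w => φ i w + ∑ j ∈ s, φ j w := by
      funext w; rw [Finset.sum_insert hi]
    rw [e, primC_add h1 h2 d1 d2 hz, Finset.sum_insert hi,
      ih (fun j hj => hφ j (Finset.mem_insert_of_mem hj))
        (fun j hj => dφ j (Finset.mem_insert_of_mem hj))]

/-- `primC` only depends on the values of `φ` on the upper half plane. -/
theorem primC_congr {φ ψ : ℂ → ℂ} (hφ : DifferentiableOn ℂ φ UH) (dφ : DecayAtInfty φ)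
    (hψ : DifferentiableOn ℂ ψ UH) (dψ : DecayAtInfty ψ)
    (h : ∀ w ∈ UH, φ w = ψ w) {z : ℂ} (hz : z ∈ UH) : primC φ z = primC ψ z :=
  eq_primC_of_hasDerivAt hψ dψ
    (fun w hw => h w hw ▸ hasDerivAt_primC hφ hw) hz (tendsto_primC hφ dφ hz) z hz

/-! ### Integral formula and quantitative bound -/

theorem primC_eq_integral {φ : ℂ → ℂ} (hφ : DifferentiableOn ℂ φ UH) (dφ : DecayAtInfty φ)
    {z : ℂ} (hz : z ∈ UH) :
    primC φ z = -(I * ∫ t in Ioi (0 : ℝ), φ (z + t * I)) := by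
  have hΦ : ∀ w ∈ UH, HasDerivAt (primC φ) (φ w) w := fun w hw => hasDerivAt_primC hφ hw
  have hcont : ContinuousWithinAt (fun t : ℝ => primC φ (z + t * I)) (Ici 0) 0 :=
    (hasDerivAt_ray hz hΦ le_rfl).continuousAt.continuousWithinAt
  have h := integral_Ioi_of_hasDerivAt_of_tendsto hcont
    (fun t ht => hasDerivAt_ray hz hΦ (le_of_lt ht))
    ((integrableOn_ray hφ dφ hz).const_mul I) (tendsto_primC hφ dφ hz)
  have h2 : ∫ t in Ioi (0 : ℝ), I * φ (z + t * I) = I * ∫ t in Ioi (0 : ℝ), φ (z + t * I) :=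
    integral_const_mul _ _
  rw [h2] at h
  rw [h]
  simp

/-- If `‖φ‖ ≤ C exp(-a im)` on the vertical ray above `z` then
`‖primC φ z‖ ≤ C / a * exp (-a im z)`. -/
theorem norm_primC_le {φ : ℂ → ℂ} (hφ : DifferentiableOn ℂ φ UH) (dφ : DecayAtInfty φ)
    {z : ℂ} (hz : z ∈ UH) {a C : ℝ} (ha : 0 < a)
    (hb : ∀ t : ℝ, 0 ≤ t → ‖φ (z + t * I)‖ ≤ C * Real.exp (-a * (z.im + t))) :
    ‖primC φ z‖ ≤ C / a * Real.exp (-a * z.im) := by
  rw [primC_eq_integral hφ dφ hz, norm_neg, norm_mul, Complex.norm_I, one_mul]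
  have hg : IntegrableOn (fun t : ℝ => C * Real.exp (-a * z.im) * Real.exp (-a * t)) (Ioi 0) :=
    (exp_neg_integrableOn_Ioi 0 ha).const_mul _
  have h1 : ‖∫ t in Ioi (0 : ℝ), φ (z + t * I)‖ ≤
      ∫ t in Ioi (0 : ℝ), C * Real.exp (-a * z.im) * Real.exp (-a * t) := by
    refine norm_integral_le_of_norm_le hg ?_
    refine (ae_restrict_iff' measurableSet_Ioi).mpr (Eventually.of_forall fun t ht => ?_)
    have := hb t (le_of_lt ht)
    calc ‖φ (z + t * I)‖ ≤ C * Real.exp (-a * (z.im + t)) := this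
      _ = C * Real.exp (-a * z.im) * Real.exp (-a * t) := by
        rw [mul_assoc, ← Real.exp_add]; ring_nf
  have h2 : ∫ t in Ioi (0 : ℝ), C * Real.exp (-a * z.im) * Real.exp (-a * t) =
      C / a * Real.exp (-a * z.im) := by
    rw [integral_const_mul, integral_exp_mul_Ioi (neg_neg_of_pos ha) 0]
    simp
    field_simp
  rw [h2] at h1
  exact h1

theorem tendsto_primC_re {φ : ℂ → ℂ} (hφ : DifferentiableOn ℂ φ UH) (dφ : DecayAtInfty φ)
    (x : ℝ) : Tendsto (fun t : ℝ => primC φ (x + t * I)) atTop (𝓝 0) := by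
  have hz : (x : ℂ) + I ∈ UH := by simp [UH]
  have h := tendsto_primC hφ dφ hz
  have h2 := h.comp (tendsto_atTop_add_const_right atTop (-1 : ℝ) tendsto_id)
  refine h2.congr (fun t => ?_)
  simp only [Function.comp_apply, id_eq]
  congr 1
  push_cast
  ring

/-- The normalised primitive of a decaying function decays. -/
theorem DecayAtInfty.primC {φ : ℂ → ℂ} (hφ : DifferentiableOn ℂ φ UH) (dφ : DecayAtInfty φ) :
    DecayAtInfty (primC φ) := by
  intro B
  obtain ⟨c, hc, C, A, hCA⟩ := dφ B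
  refine ⟨c, hc, C / c, max A 1, fun z hz hA => ?_⟩
  have hA1 : A ≤ z.im := le_trans (le_max_left _ _) hA
  have hA2 : 1 ≤ z.im := le_trans (le_max_right _ _) hA
  have hzU : z ∈ UH := by
    have : (0 : ℝ) < z.im := by linarith
    exact this
  refine norm_primC_le hφ dφ hzU hc (fun t ht => ?_)
  have h1 : |(z + t * I).re| ≤ B := by simpa using hz
  have h2 : A ≤ (z + t * I).im := by simp; linarith
  have := hCA _ h1 h2
  simpa using this

/-! ### Versions for functions on `ℍ` -/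

open UpperHalfPlane hiding I
open scoped Manifold

/-- Decay predicate for functions on `ℍ`. -/
def VertDecay (φ : ℍ → ℂ) : Prop := DecayAtInfty (φ ∘ ofComplex)

/-- The primitive vanishing at `i∞` of a function on `ℍ`, as a vertical integral. -/
noncomputable def primInfty (φ : ℍ → ℂ) (z : ℍ) : ℂ :=
  -(I * ∫ t in Set.Ioi (0 : ℝ), φ (ofComplex ((z : ℂ) + t * I)))

lemma coe_mem_UH (z : ℍ) : (z : ℂ) ∈ UH := z.im_pos

lemma ofComplex_coe_of_mem {w : ℂ} (hw : w ∈ UH) : ((ofComplex w : ℍ) : ℂ) = w := by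
  rw [ofComplex_apply_of_im_pos hw]

lemma differentiableOn_of_mdiff {φ : ℍ → ℂ} (hφ : MDiff φ) :
    DifferentiableOn ℂ (φ ∘ ofComplex) UH :=
  UpperHalfPlane.mdifferentiable_iff.mp hφ

theorem VertDecay.integrableOn {φ : ℍ → ℂ} (hφ : MDiff φ) (hd : VertDecay φ) (z : ℍ) :
    IntegrableOn (fun t : ℝ => φ (ofComplex ((z : ℂ) + t * I))) (Set.Ioi 0) :=
  integrableOn_ray (differentiableOn_of_mdiff hφ) hd (coe_mem_UH z)

/-- The integral definition agrees with the normalised primitive `primC`. -/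
theorem primInfty_eq_primC {φ : ℍ → ℂ} (hφ : MDiff φ) (hd : VertDecay φ) (z : ℍ) :
    primInfty φ z = primC (φ ∘ ofComplex) (z : ℂ) :=
  (primC_eq_integral (differentiableOn_of_mdiff hφ) hd (coe_mem_UH z)).symm

theorem primInfty_hasDerivAt {φ : ℍ → ℂ} (hφ : MDiff φ) (hd : VertDecay φ) (z : ℍ) :
    HasDerivAt (fun w : ℂ => primInfty φ (ofComplex w)) (φ z) (z : ℂ) := by
  have h := hasDerivAt_primC (differentiableOn_of_mdiff hφ) (coe_mem_UH z)
  have hval : (φ ∘ ofComplex) (z : ℂ) = φ z := by simp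
  rw [hval] at h
  refine h.congr_of_eventuallyEq ?_
  filter_upwards [isOpen_UH.mem_nhds (coe_mem_UH z)] with w hw
  rw [primInfty_eq_primC hφ hd, ofComplex_coe_of_mem hw]

theorem primInfty_tendsto {φ : ℍ → ℂ} (hφ : MDiff φ) (hd : VertDecay φ) (x : ℝ) :
    Tendsto (fun t : ℝ => primInfty φ (ofComplex ((x : ℂ) + t * I))) atTop (𝓝 0) := by
  refine (tendsto_primC_re (differentiableOn_of_mdiff hφ) hd x).congr' ?_
  filter_upwards [eventually_gt_atTop 0] with t ht
  have hw : (x : ℂ) + t * I ∈ UH := by simpa [UH] using ht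
  rw [primInfty_eq_primC hφ hd, ofComplex_coe_of_mem hw]

/-- Uniqueness for functions on `ℍ`: if `G ∘ ofComplex` has derivative `φ` on `ℍ` and `G → 0` up
one vertical ray, then `G = primInfty φ`. -/
theorem primInfty_unique {φ : ℍ → ℂ} (hφ : MDiff φ) (dφ : VertDecay φ) {G : ℍ → ℂ}
    (hG : ∀ z : ℍ, HasDerivAt (fun w : ℂ => G (ofComplex w)) (φ z) (z : ℂ)) (x : ℝ)
    (hlim : Tendsto (fun t : ℝ => G (ofComplex ((x : ℂ) + t * I))) atTop (𝓝 0)) (z : ℍ) :
    G z = primInfty φ z := by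
  have hz₀ : (x : ℂ) + I ∈ UH := by simp [UH]
  have key := eq_primC_of_hasDerivAt (φ := φ ∘ ofComplex) (differentiableOn_of_mdiff hφ) dφ
    (G := fun w => G (ofComplex w)) (fun w hw => by
      have := hG ⟨w, hw⟩
      simpa [ofComplex_apply_of_im_pos hw] using this) hz₀ ?_ (z : ℂ) (coe_mem_UH z)
  · rw [primInfty_eq_primC hφ dφ]
    simpa using key
  · have h2 := hlim.comp (tendsto_atTop_add_const_right atTop (1 : ℝ) tendsto_id)
    refine h2.congr (fun t => ?_)
    simp only [Function.comp_apply, id_eq]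
    congr 2
    push_cast
    ring

/-- Quantitative decay of `primInfty`: locally uniformly in the real part, exponentially small. -/
theorem primInfty_decay {φ : ℍ → ℂ} (hφ : MDiff φ) (dφ : VertDecay φ) (B : ℝ) :
    ∃ c : ℝ, 0 < c ∧ ∃ C A : ℝ, ∀ z : ℍ, |z.re| ≤ B → A ≤ z.im →
      ‖primInfty φ z‖ ≤ C * Real.exp (-c * z.im) := by
  obtain ⟨c, hc, C, A, h⟩ := (DecayAtInfty.primC (differentiableOn_of_mdiff hφ) dφ) B
  refine ⟨c, hc, C, A, fun z hz hA => ?_⟩
  rw [primInfty_eq_primC hφ dφ]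
  exact h (z : ℂ) hz hA

lemma VertDecay.add {φ ψ : ℍ → ℂ} (h : VertDecay φ) (h' : VertDecay ψ) :
    VertDecay (fun w => φ w + ψ w) := DecayAtInfty.add h h'

lemma VertDecay.const_mul {φ : ℍ → ℂ} (h : VertDecay φ) (a : ℂ) :
    VertDecay (fun w => a * φ w) := DecayAtInfty.const_mul h a

lemma VertDecay.sum {ι : Type*} (s : Finset ι) {φ : ι → ℍ → ℂ} (h : ∀ i ∈ s, VertDecay (φ i)) :
    VertDecay (fun w => ∑ i ∈ s, φ i w) := by
  have := DecayAtInfty.sum s (φ := fun i => φ i ∘ ofComplex) h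
  simpa [VertDecay, Function.comp_def] using this

/-- `f = O(exp(-a im))` at `i∞` and `P` of polynomial growth give `VertDecay (f * P)`. -/
theorem vertDecay_of_isBigO_mul {f P : ℍ → ℂ} {a : ℝ} (ha : 0 < a)
    (hf : f =O[atImInfty] fun τ => Real.exp (-a * τ.im))
    (hP : ∃ (K : ℝ) (m : ℕ), ∀ τ : ℍ, ‖P τ‖ ≤ K * (1 + ‖(τ : ℂ)‖) ^ m) :
    VertDecay (fun τ => f τ * P τ) := by
  obtain ⟨C, hC⟩ := Asymptotics.isBigO_iff.mp hf
  obtain ⟨A, hA⟩ := (atImInfty_mem _).mp hC
  obtain ⟨K, m, hK⟩ := hP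
  have key : DecayAtInfty (fun z => (f ∘ ofComplex) z * (P ∘ ofComplex) z) := by
    refine DecayAtInfty.of_mul_polyGrowth ha ⟨C, max A 1, fun z hz => ?_⟩ ⟨K, m, fun z hz => ?_⟩
    · have hz0 : 0 < z.im := lt_of_lt_of_le one_pos (le_trans (le_max_right _ _) hz)
      have h1 := hA (ofComplex z) (by
        rw [ofComplex_apply_of_im_pos hz0]; exact le_trans (le_max_left _ _) hz)
      have e : (ofComplex z : ℍ).im = z.im := by rw [ofComplex_apply_of_im_pos hz0]; rfl
      simp only [Function.comp_apply]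
      rw [Set.mem_ofPred_eq, e, Real.norm_eq_abs, abs_of_pos (Real.exp_pos _)] at h1
      exact h1
    · have := hK (ofComplex z)
      rwa [ofComplex_coe_of_mem hz] at this
  exact key

/-- Same as `vertDecay_of_isBigO_mul`, in the shape used by `EichlerPrim.lean`. -/
theorem vertDecay_mul {f P : ℍ → ℂ} {a : ℝ} (ha : 0 < a)
    (hf : f =O[atImInfty] fun τ => Real.exp (-a * τ.im)) (_hfc : Continuous f)
    {C : ℝ} {m : ℕ} (hP : ∀ w : ℍ, ‖P w‖ ≤ C * (1 + ‖(w : ℂ)‖) ^ m) :
    VertDecay (fun w => f w * P w) :=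
  vertDecay_of_isBigO_mul ha hf ⟨C, m, hP⟩

end Fermat.Agent.S22
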