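-- S22 helper (P2): the polynomial-valued Eichler primitive `eichF n f z x y`, i.e. the primitive in
-- `z` of `f z * (x - z y)^n` vanishing at `i∞`, its expansion, derivative and transformation law.
import Fermat.Agent.S22.PrimInfty

set_option autoImplicit false

namespace Fermat.Agent.S22

open UpperHalfPlane hiding I
open Complex Filter Topology MeasureTheory
open scoped Manifold ModularForm

/-- The Eichler primitive: primitive (in `z`) of `f z * (x - z * y) ^ n` vanishing at `i∞`. -/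
noncomputable def eichF (n : ℕ) (f : ℍ → ℂ) (z : ℍ) (x y : ℂ) : ℂ :=
  primInfty (fun w => f w * (x - (w : ℂ) * y) ^ n) z

/-- The integrand of the Eichler primitive. -/
noncomputable def eichIntegrand (n : ℕ) (f : ℍ → ℂ) (x y : ℂ) : ℍ → ℂ :=
  fun w => f w * (x - (w : ℂ) * y) ^ n

theorem eichF_def (n : ℕ) (f : ℍ → ℂ) (z : ℍ) (x y : ℂ) :
    eichF n f z x y = primInfty (eichIntegrand n f x y) z := rfl

/-- The Eichler primitive as an integral up the vertical ray (definitional form). -/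
theorem eichF_eq_integral' (n : ℕ) (f : ℍ → ℂ) (z : ℍ) (x y : ℂ) :
    eichF n f z x y = -(I * ∫ t in Set.Ioi (0 : ℝ), f (ofComplex ((z : ℂ) + t * I)) *
      (x - ((ofComplex ((z : ℂ) + t * I) : ℍ) : ℂ) * y) ^ n) := rfl

/-- The Eichler primitive as an integral up the vertical ray. -/
theorem eichF_eq_integral (n : ℕ) (f : ℍ → ℂ) (z : ℍ) (x y : ℂ) :
    eichF n f z x y = -(I * ∫ t in Set.Ioi (0 : ℝ), f (ofComplex ((z : ℂ) + t * I)) *
      (x - ((z : ℂ) + t * I) * y) ^ n) := by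
  rw [eichF_eq_integral']
  congr 2
  refine setIntegral_congr_fun measurableSet_Ioi fun t ht => ?_
  have him : 0 < ((z : ℂ) + t * I).im := by
    have : (0 : ℝ) < t := ht
    simp only [Complex.add_im, Complex.mul_im, Complex.ofReal_re, Complex.I_im, mul_one,
      Complex.ofReal_im, Complex.I_re, mul_zero, add_zero]
    exact add_pos z.im_pos this
  simp only [ofComplex_apply_of_im_pos him]

section basic

variable {f : ℍ → ℂ} {a : ℝ}

theorem mdiff_eichIntegrand (hf : MDiff f) (n : ℕ) (x y : ℂ) : MDiff (eichIntegrand n f x y) := by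
  unfold eichIntegrand
  refine hf.mul ?_
  have h1 : MDiff (fun w : ℍ => x - (w : ℂ) * y) :=
    (mdifferentiable_const).sub (mdifferentiable_coe.mul mdifferentiable_const)
  exact h1.pow n

theorem norm_poly_le (n : ℕ) (x y : ℂ) (w : ℍ) :
    ‖(x - (w : ℂ) * y) ^ n‖ ≤ (1 + ‖x‖ + ‖y‖) ^ n * (1 + ‖(w : ℂ)‖) ^ n := by
  rw [norm_pow, ← mul_pow]
  refine pow_le_pow_left₀ (norm_nonneg _) ?_ n
  calc ‖x - (w : ℂ) * y‖ ≤ ‖x‖ + ‖(w : ℂ) * y‖ := norm_sub_le _ _
    _ = ‖x‖ + ‖(w : ℂ)‖ * ‖y‖ := by rw [norm_mul]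
    _ ≤ (1 + ‖x‖ + ‖y‖) * (1 + ‖(w : ℂ)‖) := by
      nlinarith [norm_nonneg x, norm_nonneg y, norm_nonneg (w : ℂ)]

theorem vertDecay_eichIntegrand (ha : 0 < a) (hf : MDiff f)
    (hfd : f =O[atImInfty] fun τ => Real.exp (-a * τ.im)) (n : ℕ) (x y : ℂ) :
    VertDecay (eichIntegrand n f x y) :=
  vertDecay_mul ha hfd hf.continuous (norm_poly_le n x y)

/-- (ii) derivative of the Eichler primitive in `z`. -/
theorem eichF_hasDerivAt (ha : 0 < a) (hf : MDiff f)
    (hfd : f =O[atImInfty] fun τ => Real.exp (-a * τ.im)) (n : ℕ) (x y : ℂ) (z : ℍ) :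
    HasDerivAt (fun w : ℂ => eichF n f (ofComplex w) x y) (f z * (x - (z : ℂ) * y) ^ n) (z : ℂ) :=
  primInfty_hasDerivAt (mdiff_eichIntegrand hf n x y) (vertDecay_eichIntegrand ha hf hfd n x y) z

/-- decay of the Eichler primitive up vertical rays. -/
theorem eichF_tendsto (ha : 0 < a) (hf : MDiff f)
    (hfd : f =O[atImInfty] fun τ => Real.exp (-a * τ.im)) (n : ℕ) (x y : ℂ) (u : ℝ) :
    Tendsto (fun t : ℝ => eichF n f (ofComplex ((u : ℂ) + t * I)) x y) atTop (𝓝 0) :=
  primInfty_tendsto (mdiff_eichIntegrand hf n x y) (vertDecay_eichIntegrand ha hf hfd n x y) u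

/-- The moment integrand `f w * w ^ j`. -/
noncomputable def momIntegrand (j : ℕ) (f : ℍ → ℂ) : ℍ → ℂ := fun w => f w * (w : ℂ) ^ j

theorem mdiff_momIntegrand (hf : MDiff f) (j : ℕ) : MDiff (momIntegrand j f) :=
  hf.mul (mdifferentiable_coe.pow j)

theorem vertDecay_momIntegrand (ha : 0 < a) (hf : MDiff f)
    (hfd : f =O[atImInfty] fun τ => Real.exp (-a * τ.im)) (j : ℕ) :
    VertDecay (momIntegrand j f) := by
  refine vertDecay_mul (C := 1) (m := j) ha hfd hf.continuous fun w => ?_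
  rw [norm_pow, one_mul]
  exact pow_le_pow_left₀ (norm_nonneg _) (by linarith [norm_nonneg (w : ℂ)]) j

theorem eichIntegrand_eq_sum (n : ℕ) (f : ℍ → ℂ) (x y : ℂ) (w : ℍ) :
    eichIntegrand n f x y w =
      ∑ j ∈ Finset.range (n + 1), ((n.choose j : ℂ) * x ^ (n - j) * (-y) ^ j) * momIntegrand j f w := by
  unfold eichIntegrand momIntegrand
  have : x - (w : ℂ) * y = (-((w : ℂ) * y)) + x := by ring
  rw [this, add_pow, Finset.mul_sum]
  refine Finset.sum_congr rfl fun j _ => ?_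
  rw [neg_pow, mul_pow, neg_pow (y)]
  ring

/-- (i) expansion of the Eichler primitive as a homogeneous polynomial of degree `n` in `(x, y)`
whose coefficients are the moment primitives. -/
theorem eichF_expand (ha : 0 < a) (hf : MDiff f)
    (hfd : f =O[atImInfty] fun τ => Real.exp (-a * τ.im)) (n : ℕ) (x y : ℂ) (z : ℍ) :
    eichF n f z x y =
      ∑ j ∈ Finset.range (n + 1), ((n.choose j : ℂ) * x ^ (n - j) * (-y) ^ j) *
        primInfty (momIntegrand j f) z := by
  rw [eichF_def]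
  unfold primInfty
  have hint : ∀ j ∈ Finset.range (n + 1), Integrable
      (fun t : ℝ => ((n.choose j : ℂ) * x ^ (n - j) * (-y) ^ j) *
        momIntegrand j f (ofComplex ((z : ℂ) + t * I))) (volume.restrict (Set.Ioi 0)) := by
    intro j _
    exact ((vertDecay_momIntegrand ha hf hfd j).integrableOn (mdiff_momIntegrand hf j) z).const_mul _
  simp_rw [eichIntegrand_eq_sum]
  rw [integral_finsetSum _ hint, Finset.mul_sum, ← Finset.sum_neg_distrib]
  refine Finset.sum_congr rfl fun j _ => ?_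
  rw [integral_const_mul]
  ring

end basic

section linear

variable {f f' : ℍ → ℂ} {a a' : ℝ}

theorem primInfty_add_of_integrable {φ ψ : ℍ → ℂ} (z : ℍ)
    (hφ : IntegrableOn (fun t : ℝ => φ (ofComplex ((z : ℂ) + t * I))) (Set.Ioi 0))
    (hψ : IntegrableOn (fun t : ℝ => ψ (ofComplex ((z : ℂ) + t * I))) (Set.Ioi 0)) :
    primInfty (φ + ψ) z = primInfty φ z + primInfty ψ z := by
  unfold primInfty
  simp only [Pi.add_apply]
  rw [integral_add hφ hψ]
  ring

theorem primInfty_const_mul (c : ℂ) (φ : ℍ → ℂ) (z : ℍ) :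
    primInfty (fun w => c * φ w) z = c * primInfty φ z := by
  unfold primInfty
  rw [integral_const_mul]
  ring

theorem momIntegrand_add (j : ℕ) (f f' : ℍ → ℂ) :
    momIntegrand j (f + f') = momIntegrand j f + momIntegrand j f' := by
  funext w; simp [momIntegrand, add_mul]

theorem momIntegrand_smul (j : ℕ) (c : ℂ) (f : ℍ → ℂ) :
    momIntegrand j (c • f) = fun w => c * momIntegrand j f w := by
  funext w; simp [momIntegrand, mul_assoc]

theorem eichIntegrand_add (n : ℕ) (f f' : ℍ → ℂ) (x y : ℂ) :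
    eichIntegrand n (f + f') x y = eichIntegrand n f x y + eichIntegrand n f' x y := by
  funext w; simp [eichIntegrand, add_mul]

theorem eichIntegrand_smul (n : ℕ) (c : ℂ) (f : ℍ → ℂ) (x y : ℂ) :
    eichIntegrand n (c • f) x y = fun w => c * eichIntegrand n f x y w := by
  funext w; simp [eichIntegrand, mul_assoc]

/-- additivity of the moment primitives in `f`. -/
theorem primInfty_momIntegrand_add (ha : 0 < a) (ha' : 0 < a') (hf : MDiff f) (hf' : MDiff f')
    (hfd : f =O[atImInfty] fun τ => Real.exp (-a * τ.im))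
    (hfd' : f' =O[atImInfty] fun τ => Real.exp (-a' * τ.im)) (j : ℕ) (z : ℍ) :
    primInfty (momIntegrand j (f + f')) z =
      primInfty (momIntegrand j f) z + primInfty (momIntegrand j f') z := by
  rw [momIntegrand_add]
  exact primInfty_add_of_integrable z
    ((vertDecay_momIntegrand ha hf hfd j).integrableOn (mdiff_momIntegrand hf j) z)
    ((vertDecay_momIntegrand ha' hf' hfd' j).integrableOn (mdiff_momIntegrand hf' j) z)

theorem primInfty_momIntegrand_smul (c : ℂ) (f : ℍ → ℂ) (j : ℕ) (z : ℍ) :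
    primInfty (momIntegrand j (c • f)) z = c * primInfty (momIntegrand j f) z := by
  rw [momIntegrand_smul, primInfty_const_mul]

/-- additivity of the Eichler primitive in `f`. -/
theorem eichF_add (ha : 0 < a) (ha' : 0 < a') (hf : MDiff f) (hf' : MDiff f')
    (hfd : f =O[atImInfty] fun τ => Real.exp (-a * τ.im))
    (hfd' : f' =O[atImInfty] fun τ => Real.exp (-a' * τ.im)) (n : ℕ) (z : ℍ) (x y : ℂ) :
    eichF n (f + f') z x y = eichF n f z x y + eichF n f' z x y := by
  rw [eichF_def, eichF_def, eichF_def, eichIntegrand_add]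
  exact primInfty_add_of_integrable z
    ((vertDecay_eichIntegrand ha hf hfd n x y).integrableOn (mdiff_eichIntegrand hf n x y) z)
    ((vertDecay_eichIntegrand ha' hf' hfd' n x y).integrableOn (mdiff_eichIntegrand hf' n x y) z)

theorem eichF_smul (c : ℂ) (f : ℍ → ℂ) (n : ℕ) (z : ℍ) (x y : ℂ) :
    eichF n (c • f) z x y = c * eichF n f z x y := by
  rw [eichF_def, eichF_def, eichIntegrand_smul, primInfty_const_mul]

/-- additivity of the Eichler primitive over finite sums. -/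
theorem eichF_sum {ι : Type*} (s : Finset ι) (F : ι → ℍ → ℂ) (hF : ∀ i ∈ s, MDiff (F i))
    (hFd : ∀ i ∈ s, ∃ a : ℝ, 0 < a ∧ F i =O[atImInfty] fun τ => Real.exp (-a * τ.im))
    (n : ℕ) (z : ℍ) (x y : ℂ) :
    eichF n (∑ i ∈ s, F i) z x y = ∑ i ∈ s, eichF n (F i) z x y := by
  rw [eichF_def]
  unfold primInfty
  have hint : ∀ i ∈ s, Integrable
      (fun t : ℝ => eichIntegrand n (F i) x y (ofComplex ((z : ℂ) + t * I)))
      (volume.restrict (Set.Ioi 0)) := by
    intro i hi
    obtain ⟨a, ha, hd⟩ := hFd i hi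
    exact (vertDecay_eichIntegrand ha (hF i hi) hd n x y).integrableOn
      (mdiff_eichIntegrand (hF i hi) n x y) z
  have e : ∀ w : ℍ, eichIntegrand n (∑ i ∈ s, F i) x y w = ∑ i ∈ s, eichIntegrand n (F i) x y w := by
    intro w
    simp [eichIntegrand, Finset.sum_mul]
  simp_rw [e]
  rw [integral_finsetSum _ hint, Finset.mul_sum, ← Finset.sum_neg_distrib]
  rfl

end linear

section transform

variable {f : ℍ → ℂ} {a b : ℝ}

/-- Key algebraic identity behind the transformation law. -/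
theorem moebius_linear_identity (g : GL (Fin 2) ℝ) (hg : 0 < g.det.val) (z : ℍ) (x y : ℂ) :
    ((g 0 0 : ℂ) * x + (g 0 1 : ℂ) * y) - ((g • z : ℍ) : ℂ) * ((g 1 0 : ℂ) * x + (g 1 1 : ℂ) * y) =
      (g.det.val : ℂ) / denom g z * (x - (z : ℂ) * y) := by
  have hd : denom g z ≠ 0 := denom_ne_zero g z
  rw [coe_smul_of_det_pos hg]
  field_simp
  simp only [num, denom, Matrix.GeneralLinearGroup.val_det_apply, Matrix.det_fin_two]
  push_cast
  ring

/-- The slash action unfolded for positive determinant. -/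
theorem slash_apply_of_det_pos (k : ℤ) (g : GL (Fin 2) ℝ) (hg : 0 < g.det.val) (z : ℍ) :
    (f ∣[k] g) z = f (g • z) * (g.det.val : ℂ) ^ (k - 1) * denom g z ^ (-k) := by
  rw [ModularForm.slash_apply, σ, if_pos hg, abs_of_pos hg]
  rfl

/-- Derivative of `w ↦ eichF n f (g • w) (g (x,y))`: it equals the integrand for `f ∣[n+2] g`. -/
theorem eichF_smul_hasDerivAt (ha : 0 < a) (hf : MDiff f)
    (hfd : f =O[atImInfty] fun τ => Real.exp (-a * τ.im)) (n : ℕ)
    (g : GL (Fin 2) ℝ) (hg : 0 < g.det.val) (x y : ℂ) (z : ℍ) :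
    HasDerivAt (fun w : ℂ => eichF n f (g • ofComplex w)
        ((g 0 0 : ℂ) * x + (g 0 1 : ℂ) * y) ((g 1 0 : ℂ) * x + (g 1 1 : ℂ) * y))
      ((f ∣[(n : ℤ) + 2] g) z * (x - (z : ℂ) * y) ^ n) (z : ℂ) := by
  set x' : ℂ := (g 0 0 : ℂ) * x + (g 0 1 : ℂ) * y with hx'
  set y' : ℂ := (g 1 0 : ℂ) * x + (g 1 1 : ℂ) * y with hy'
  have hd : denom g z ≠ 0 := denom_ne_zero g z
  have hdet : (g.det.val : ℂ) ≠ 0 := by exact_mod_cast hg.ne'
  -- outer derivative at `g • z`
  have h1 := eichF_hasDerivAt ha hf hfd n x' y' (g • z)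
  -- inner derivative
  have h2 : HasDerivAt (fun w : ℂ => ((g • ofComplex w : ℍ) : ℂ))
      ((g.det.val : ℂ) / denom g z ^ 2) (z : ℂ) := by
    have := (hasStrictDerivAt_smul (g := g) (by simpa using hg) z).hasDerivAt
    simpa using this
  have h3 := HasDerivAt.comp (z : ℂ) (h₂ := fun w : ℂ => eichF n f (ofComplex w) x' y')
    (h := fun w : ℂ => ((g • ofComplex w : ℍ) : ℂ)) (by simpa using h1) h2
  have h4 : ((fun w : ℂ => eichF n f (ofComplex w) x' y') ∘ fun w : ℂ => ((g • ofComplex w : ℍ) : ℂ))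
      = fun w : ℂ => eichF n f (g • ofComplex w) x' y' := by
    funext w
    simp [Function.comp, ofComplex_apply]
  rw [h4] at h3
  refine h3.congr_deriv ?_
  rw [slash_apply_of_det_pos _ g hg, moebius_linear_identity g hg z x y]
  have e1 : ((n : ℤ) + 2 - 1) = ((n + 1 : ℕ) : ℤ) := by push_cast; ring
  have e2 : -((n : ℤ) + 2) = -((n + 2 : ℕ) : ℤ) := by push_cast; ring
  rw [e1, e2, zpow_natCast, zpow_neg, zpow_natCast, mul_pow, div_pow]
  field_simp
  ring

/-- (iii) transformation law: `z ↦ eichF n f (g • z) (g v) - eichF n (f ∣[n+2] g) z v` is constant. -/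
theorem eichF_smul_sub_const (ha : 0 < a) (hb : 0 < b) (hf : MDiff f)
    (hfd : f =O[atImInfty] fun τ => Real.exp (-a * τ.im)) (n : ℕ)
    (g : GL (Fin 2) ℝ) (hg : 0 < g.det.val)
    (hgd : (f ∣[(n : ℤ) + 2] g) =O[atImInfty] fun τ => Real.exp (-b * τ.im)) (x y : ℂ) :
    ∃ c : ℂ, ∀ z : ℍ,
      eichF n f (g • z) ((g 0 0 : ℂ) * x + (g 0 1 : ℂ) * y) ((g 1 0 : ℂ) * x + (g 1 1 : ℂ) * y)
        - eichF n (f ∣[(n : ℤ) + 2] g) z x y = c := by
  have hfg : MDiff (f ∣[(n : ℤ) + 2] g) := hf.slash _ g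
  set H : ℂ → ℂ := fun w => eichF n f (g • ofComplex w)
      ((g 0 0 : ℂ) * x + (g 0 1 : ℂ) * y) ((g 1 0 : ℂ) * x + (g 1 1 : ℂ) * y)
        - eichF n (f ∣[(n : ℤ) + 2] g) (ofComplex w) x y with hH
  have hder : ∀ w ∈ upperHalfPlaneSet, HasDerivAt H 0 w := by
    intro w hw
    have e : w = ((⟨w, hw⟩ : ℍ) : ℂ) := rfl
    have h1 := eichF_smul_hasDerivAt ha hf hfd n g hg x y ⟨w, hw⟩
    have h2 := eichF_hasDerivAt hb hfg hgd n x y ⟨w, hw⟩
    have := h1.sub h2
    rw [sub_self] at this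
    rw [e]
    exact this
  obtain ⟨c, hc⟩ := isOpen_upperHalfPlaneSet.exists_is_const_of_deriv_eq_zero
    (convex_halfSpace_im_gt 0).isPreconnected
    (fun w hw => (hder w hw).differentiableAt.differentiableWithinAt)
    (fun w hw => (hder w hw).deriv)
  refine ⟨c, fun z => ?_⟩
  have := hc (z : ℂ) z.im_pos
  simpa [hH, ofComplex_apply] using this

/-- Action of an upper triangular matrix of positive determinant on the imaginary axis. -/
theorem upper_smul_ofComplex (g : GL (Fin 2) ℝ) (hg : 0 < g.det.val) (hc : g 1 0 = 0)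
    {t : ℝ} (ht : 0 < t) :
    g • ofComplex (((0 : ℝ) : ℂ) + t * I) =
      ofComplex (((g 0 1 / g 1 1 : ℝ) : ℂ) + ((g 0 0 / g 1 1 * t : ℝ) : ℂ) * I) := by
  have hdet : g 0 0 * g 1 1 > 0 := by
    have := hg
    rw [Matrix.GeneralLinearGroup.val_det_apply, Matrix.det_fin_two, hc, mul_zero, sub_zero] at this
    exact this
  have h11 : g 1 1 ≠ 0 := fun h => by rw [h, mul_zero] at hdet; exact lt_irrefl _ hdet
  have hr : 0 < g 0 0 / g 1 1 := by
    have : g 0 0 / g 1 1 = (g 0 0 * g 1 1) / (g 1 1) ^ 2 := by field_simp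
    rw [this]
    exact div_pos hdet (by positivity)
  have him : 0 < (((0 : ℝ) : ℂ) + t * I).im := by simpa using ht
  have him2 : 0 < (((g 0 1 / g 1 1 : ℝ) : ℂ) + ((g 0 0 / g 1 1 * t : ℝ) : ℂ) * I).im := by
    simpa using mul_pos hr ht
  apply UpperHalfPlane.ext
  rw [coe_smul_of_det_pos hg, ofComplex_apply_of_im_pos him, ofComplex_apply_of_im_pos him2]
  simp only [num, denom, hc]
  have h11' : ((g 1 1 : ℝ) : ℂ) ≠ 0 := by exact_mod_cast h11
  push_cast
  rw [zero_mul, zero_add, zero_add, div_eq_iff h11']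
  field_simp
  ring

/-- (iv) for upper triangular `g` of positive determinant the constant in the transformation law
vanishes. -/
theorem eichF_smul_of_upper (ha : 0 < a) (hb : 0 < b) (hf : MDiff f)
    (hfd : f =O[atImInfty] fun τ => Real.exp (-a * τ.im)) (n : ℕ)
    (g : GL (Fin 2) ℝ) (hg : 0 < g.det.val) (hc : g 1 0 = 0)
    (hgd : (f ∣[(n : ℤ) + 2] g) =O[atImInfty] fun τ => Real.exp (-b * τ.im)) (x y : ℂ) (z : ℍ) :
    eichF n f (g • z) ((g 0 0 : ℂ) * x + (g 0 1 : ℂ) * y) ((g 1 0 : ℂ) * x + (g 1 1 : ℂ) * y)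
      = eichF n (f ∣[(n : ℤ) + 2] g) z x y := by
  obtain ⟨c, hc'⟩ := eichF_smul_sub_const ha hb hf hfd n g hg hgd x y
  have hfg : MDiff (f ∣[(n : ℤ) + 2] g) := hf.slash _ g
  have hdet : g 0 0 * g 1 1 > 0 := by
    have := hg
    rw [Matrix.GeneralLinearGroup.val_det_apply, Matrix.det_fin_two, hc, mul_zero, sub_zero] at this
    exact this
  have h11 : g 1 1 ≠ 0 := fun h => by rw [h, mul_zero] at hdet; exact lt_irrefl _ hdet
  have hr : 0 < g 0 0 / g 1 1 := by
    have : g 0 0 / g 1 1 = (g 0 0 * g 1 1) / (g 1 1) ^ 2 := by field_simp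
    rw [this]
    exact div_pos hdet (by positivity)
  set x' : ℂ := (g 0 0 : ℂ) * x + (g 0 1 : ℂ) * y with hx'
  set y' : ℂ := (g 1 0 : ℂ) * x + (g 1 1 : ℂ) * y with hy'
  -- limit of the second term
  have l2 := eichF_tendsto hb hfg hgd n x y 0
  -- limit of the first term
  have l1 : Tendsto (fun t : ℝ => eichF n f (g • ofComplex (((0 : ℝ) : ℂ) + t * I)) x' y')
      atTop (𝓝 0) := by
    have l := eichF_tendsto ha hf hfd n x' y' (g 0 1 / g 1 1)
    have hmul : Tendsto (fun t : ℝ => g 0 0 / g 1 1 * t) atTop atTop :=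
      tendsto_id.const_mul_atTop hr
    have l' := l.comp hmul
    refine l'.congr' ?_
    filter_upwards [eventually_gt_atTop (0 : ℝ)] with t ht
    simp only [Function.comp]
    rw [upper_smul_ofComplex g hg hc ht]
  have l3 := l1.sub l2
  rw [sub_zero] at l3
  have l4 : Tendsto (fun _ : ℝ => c) atTop (𝓝 0) := by
    refine l3.congr fun t => ?_
    exact hc' _
  have hc0 : c = 0 := tendsto_nhds_unique tendsto_const_nhds l4
  have := hc' z
  rw [hc0, sub_eq_zero] at this
  exact this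

end transform

end Fermat.Agent.S22
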