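import Mathlib
import Fermat.Agent.S22.CocycleFG
import Fermat.Agent.S22.EichlerPrim

set_option autoImplicit false

namespace Fermat.Agent.S22

open UpperHalfPlane hiding I
open Complex Filter Topology Matrix.SpecialLinearGroup
open scoped Manifold ModularForm MatrixGroups

/-- The Eichler cocycle of `f` (weight `n + 2`) at `γ`, evaluated at the vector `(x, y)`. -/
noncomputable def eichCocycle (n : ℕ) (f : ℍ → ℂ) (γ : GL (Fin 2) ℝ) (x y : ℂ) : ℂ :=
  eichF n f (γ • UpperHalfPlane.I) ((γ 0 0 : ℂ) * x + (γ 0 1 : ℂ) * y)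
    ((γ 1 0 : ℂ) * x + (γ 1 1 : ℂ) * y) - eichF n f UpperHalfPlane.I x y

section Invariant

variable {Γ : Subgroup (GL (Fin 2) ℝ)} [Γ.IsArithmetic] {n : ℕ}

/-- A cusp form for an arithmetic group decays exponentially at `i∞`. -/
theorem cuspForm_exp_decay (f : CuspForm Γ ((n : ℤ) + 2)) :
    ∃ a > 0, (f : ℍ → ℂ) =O[atImInfty] fun τ => Real.exp (-a * τ.im) :=
  CuspFormClass.exp_decay_atImInfty' f

omit [Γ.IsArithmetic] in
theorem cuspForm_mdiff (f : CuspForm Γ ((n : ℤ) + 2)) : MDiff (f : ℍ → ℂ) :=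
  CuspFormClass.holo f

/-- Transformation law of the Eichler integral under `γ ∈ Γ`. -/
theorem eichF_smul_eq (f : CuspForm Γ ((n : ℤ) + 2)) {γ : GL (Fin 2) ℝ} (hγ : γ ∈ Γ)
    (hdet : 0 < γ.det.val) (z : ℍ) (x y : ℂ) :
    eichF n f (γ • z) ((γ 0 0 : ℂ) * x + (γ 0 1 : ℂ) * y) ((γ 1 0 : ℂ) * x + (γ 1 1 : ℂ) * y)
      = eichF n f z x y + eichCocycle n f γ x y := by
  obtain ⟨a, ha, hfd⟩ := cuspForm_exp_decay f
  have hinv : (f : ℍ → ℂ) ∣[(n : ℤ) + 2] γ = f := SlashInvariantForm.slash_action_eqn f γ hγ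
  obtain ⟨c, hc⟩ := eichF_smul_sub_const ha ha (cuspForm_mdiff f) hfd n γ hdet
    (by rw [hinv]; exact hfd) x y
  have h1 := hc z
  have h2 := hc UpperHalfPlane.I
  rw [hinv] at h1 h2
  unfold eichCocycle
  rw [h2, ← h1]
  ring

/-- The cocycle relation. -/
theorem eichCocycle_mul (f : CuspForm Γ ((n : ℤ) + 2)) {γ δ : GL (Fin 2) ℝ} (hγ : γ ∈ Γ)
    (hdetγ : 0 < γ.det.val) (x y : ℂ) :
    eichCocycle n f (γ * δ) x y
      = eichCocycle n f γ ((δ 0 0 : ℂ) * x + (δ 0 1 : ℂ) * y) ((δ 1 0 : ℂ) * x + (δ 1 1 : ℂ) * y)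
        + eichCocycle n f δ x y := by
  have h := eichF_smul_eq f hγ hdetγ (δ • UpperHalfPlane.I)
    ((δ 0 0 : ℂ) * x + (δ 0 1 : ℂ) * y) ((δ 1 0 : ℂ) * x + (δ 1 1 : ℂ) * y)
  have e00 : (((γ * δ : GL (Fin 2) ℝ) 0 0 : ℝ) : ℂ) = (γ 0 0 : ℂ) * (δ 0 0 : ℂ) + (γ 0 1 : ℂ) * (δ 1 0 : ℂ) := by
    simp [Matrix.mul_apply, Fin.sum_univ_two]
  have e01 : (((γ * δ : GL (Fin 2) ℝ) 0 1 : ℝ) : ℂ) = (γ 0 0 : ℂ) * (δ 0 1 : ℂ) + (γ 0 1 : ℂ) * (δ 1 1 : ℂ) := by
    simp [Matrix.mul_apply, Fin.sum_univ_two]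
  have e10 : (((γ * δ : GL (Fin 2) ℝ) 1 0 : ℝ) : ℂ) = (γ 1 0 : ℂ) * (δ 0 0 : ℂ) + (γ 1 1 : ℂ) * (δ 1 0 : ℂ) := by
    simp [Matrix.mul_apply, Fin.sum_univ_two]
  have e11 : (((γ * δ : GL (Fin 2) ℝ) 1 1 : ℝ) : ℂ) = (γ 1 0 : ℂ) * (δ 0 1 : ℂ) + (γ 1 1 : ℂ) * (δ 1 1 : ℂ) := by
    simp [Matrix.mul_apply, Fin.sum_univ_two]
  have hx : (((γ * δ : GL (Fin 2) ℝ) 0 0 : ℝ) : ℂ) * x + (((γ * δ : GL (Fin 2) ℝ) 0 1 : ℝ) : ℂ) * y
      = (γ 0 0 : ℂ) * ((δ 0 0 : ℂ) * x + (δ 0 1 : ℂ) * y)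
        + (γ 0 1 : ℂ) * ((δ 1 0 : ℂ) * x + (δ 1 1 : ℂ) * y) := by
    rw [e00, e01]; ring
  have hy : (((γ * δ : GL (Fin 2) ℝ) 1 0 : ℝ) : ℂ) * x + (((γ * δ : GL (Fin 2) ℝ) 1 1 : ℝ) : ℂ) * y
      = (γ 1 0 : ℂ) * ((δ 0 0 : ℂ) * x + (δ 0 1 : ℂ) * y)
        + (γ 1 1 : ℂ) * ((δ 1 0 : ℂ) * x + (δ 1 1 : ℂ) * y) := by
    rw [e10, e11]; ring
  unfold eichCocycle at h ⊢
  rw [mul_smul, hx, hy, h]
  ring

end Invariant

section Lattice

variable (N : ℕ) [NeZero N] (n : ℕ)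

/-- The period functional attached to `g : SL(2, ℤ)` and an integral vector `v`. -/
noncomputable def periodFunctional (g : SL(2, ℤ)) (v : Fin 2 → ℤ) :
    Module.Dual ℂ (CuspForm (CongruenceSubgroup.Gamma0 N) ((n : ℤ) + 2)) where
  toFun f := eichCocycle n f (mapGL ℝ g) (v 0) (v 1)
  map_add' f f' := by
    obtain ⟨a, ha, hfd⟩ := cuspForm_exp_decay f
    obtain ⟨b, hb, hfd'⟩ := cuspForm_exp_decay f'
    simp only [eichCocycle, FunLike.coe_add]
    rw [eichF_add ha hb (cuspForm_mdiff f) (cuspForm_mdiff f') hfd hfd',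
      eichF_add ha hb (cuspForm_mdiff f) (cuspForm_mdiff f') hfd hfd']
    ring
  map_smul' c f := by
    simp only [eichCocycle, FunLike.coe_smul, eichF_smul, RingHom.id_apply, smul_eq_mul]
    ring

theorem periodFunctional_apply (g : SL(2, ℤ)) (v : Fin 2 → ℤ)
    (f : CuspForm (CongruenceSubgroup.Gamma0 N) ((n : ℤ) + 2)) :
    periodFunctional N n g v f = eichCocycle n f (mapGL ℝ g) (v 0) (v 1) := rfl

/-- The period lattice: the `ℤ`-span of all period functionals `periodFunctional g v` with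
`g ∈ Γ₀(N)` and `v ∈ ℤ²`. -/
noncomputable def periodLattice :
    Submodule ℤ (Module.Dual ℂ (CuspForm (CongruenceSubgroup.Gamma0 N) ((n : ℤ) + 2))) :=
  Submodule.span ℤ {w | ∃ g ∈ CongruenceSubgroup.Gamma0 N, ∃ v : Fin 2 → ℤ,
    w = periodFunctional N n g v}

theorem periodFunctional_mem_periodLattice {g : SL(2, ℤ)} (hg : g ∈ CongruenceSubgroup.Gamma0 N)
    (v : Fin 2 → ℤ) : periodFunctional N n g v ∈ periodLattice N n :=
  Submodule.subset_span ⟨g, hg, v, rfl⟩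

/-- The action of `SL(2, ℤ)` on `ℤ²` (via `toLin'`), as a local instance. -/
@[reducible] noncomputable def sl2zAction : MulAction SL(2, ℤ) (Fin 2 → ℤ) :=
  MulAction.compHom (Fin 2 → ℤ) (toLin' (n := Fin 2) (R := ℤ))

attribute [local instance] sl2zAction

theorem sl2z_smul_zero (g : SL(2, ℤ)) (v : Fin 2 → ℤ) :
    (g • v) 0 = g 0 0 * v 0 + g 0 1 * v 1 := by
  change (toLin' g v) 0 = _
  rw [toLin'_apply, Matrix.toLin'_apply, Matrix.mulVec, dotProduct, Fin.sum_univ_two]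

theorem sl2z_smul_one (g : SL(2, ℤ)) (v : Fin 2 → ℤ) :
    (g • v) 1 = g 1 0 * v 0 + g 1 1 * v 1 := by
  change (toLin' g v) 1 = _
  rw [toLin'_apply, Matrix.toLin'_apply, Matrix.mulVec, dotProduct, Fin.sum_univ_two]

/-- Cocycle relation for the period functionals. -/
theorem periodFunctional_mul {g h : SL(2, ℤ)} (hg : g ∈ CongruenceSubgroup.Gamma0 N)
    (v : Fin 2 → ℤ) :
    periodFunctional N n (g * h) v = periodFunctional N n g (h • v) + periodFunctional N n h v := by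
  ext f
  rw [LinearMap.add_apply, periodFunctional_apply, periodFunctional_apply, periodFunctional_apply,
    map_mul, eichCocycle_mul f (Subgroup.mem_map_of_mem (mapGL ℝ) hg) (by simp),
    sl2z_smul_zero, sl2z_smul_one]
  simp

/-- The coercion from the dual space to plain functions, as a `ℤ`-linear map. -/
def dualToFun (V : Type*) [AddCommGroup V] [Module ℂ V] : Module.Dual ℂ V →ₗ[ℤ] (V → ℂ) where
  toFun φ := φ
  map_add' _ _ := rfl
  map_smul' _ _ := rfl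

theorem dualToFun_injective (V : Type*) [AddCommGroup V] [Module ℂ V] :
    Function.Injective (dualToFun V) := fun _ _ h => DFunLike.coe_injective h

/-- The moment functional `f ↦ ∫_{i∞}^z f(w) w^j dw`, as a plain function of `f`. -/
noncomputable def momentFun (j : ℕ) (z : ℍ) :
    CuspForm (CongruenceSubgroup.Gamma0 N) ((n : ℤ) + 2) → ℂ :=
  fun f => primInfty (momIntegrand j f) z

/-- For integers `x`, `y` the function `f ↦ eichF n f z x y` is a `ℤ`-combination of the moment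
functionals at `z`. -/
theorem eichF_int_mem_span (z : ℍ) (x y : ℤ) :
    (fun f : CuspForm (CongruenceSubgroup.Gamma0 N) ((n : ℤ) + 2) =>
        eichF n f z (x : ℂ) (y : ℂ))
      ∈ Submodule.span ℤ (Set.range fun j : Fin (n + 1) => momentFun N n j z) := by
  have heq : (fun f : CuspForm (CongruenceSubgroup.Gamma0 N) ((n : ℤ) + 2) =>
        eichF n f z (x : ℂ) (y : ℂ))
      = ∑ j ∈ Finset.range (n + 1),
          ((n.choose j : ℤ) * x ^ (n - j) * (-y) ^ j) • momentFun N n j z := by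
    funext f
    obtain ⟨a, ha, hfd⟩ := cuspForm_exp_decay f
    rw [eichF_expand ha (cuspForm_mdiff f) hfd, Finset.sum_apply]
    refine Finset.sum_congr rfl fun j _ => ?_
    simp only [Pi.smul_apply, momentFun, zsmul_eq_mul]
    push_cast
    ring
  rw [heq]
  refine Submodule.sum_mem _ fun j hj => Submodule.smul_mem _ _ (Submodule.subset_span ?_)
  exact ⟨⟨j, Finset.mem_range.mp hj⟩, rfl⟩

/-- **The period lattice is finitely generated.** -/
theorem periodLattice_fg : (periodLattice N n).FG := by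
  classical
  refine Submodule.fg_of_fg_map_injective (dualToFun _) (dualToFun_injective _) ?_
  -- the cocycle with values in plain functions
  set lam : SL(2, ℤ) → (Fin 2 → ℤ) →
      (CuspForm (CongruenceSubgroup.Gamma0 N) ((n : ℤ) + 2) → ℂ) :=
    fun g v => dualToFun _ (periodFunctional N n g v) with hlam
  have hmap : Submodule.map (dualToFun _) (periodLattice N n)
      = Submodule.span ℤ {w | ∃ g ∈ CongruenceSubgroup.Gamma0 N, ∃ v, w = lam g v} := by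
    rw [periodLattice, Submodule.map_span]
    congr 1
    ext w
    constructor
    · rintro ⟨_, ⟨g, hg, v, rfl⟩, rfl⟩
      exact ⟨g, hg, v, rfl⟩
    · rintro ⟨g, hg, v, rfl⟩
      exact ⟨_, ⟨g, hg, v, rfl⟩, rfl⟩
  rw [hmap]
  refine span_cocycle_fg (CongruenceSubgroup.Gamma0 N) (gamma0_fg N) lam ?_ ?_
  · intro g hg h _ v
    simp only [hlam]
    rw [periodFunctional_mul N n hg, map_add]
    rfl
  · intro g _
    refine ⟨(Finset.univ.image fun j : Fin (n + 1) =>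
        momentFun N n j ((mapGL ℝ g : GL (Fin 2) ℝ) • UpperHalfPlane.I)) ∪
      (Finset.univ.image fun j : Fin (n + 1) => momentFun N n j UpperHalfPlane.I), fun v => ?_⟩
    have h1 := eichF_int_mem_span N n ((mapGL ℝ g : GL (Fin 2) ℝ) • UpperHalfPlane.I)
      (g 0 0 * v 0 + g 0 1 * v 1) (g 1 0 * v 0 + g 1 1 * v 1)
    have h2 := eichF_int_mem_span N n UpperHalfPlane.I (v 0) (v 1)
    have hsub : lam g v = (fun f : CuspForm (CongruenceSubgroup.Gamma0 N) ((n : ℤ) + 2) =>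
          eichF n f ((mapGL ℝ g : GL (Fin 2) ℝ) • UpperHalfPlane.I)
            ((g 0 0 * v 0 + g 0 1 * v 1 : ℤ) : ℂ) ((g 1 0 * v 0 + g 1 1 * v 1 : ℤ) : ℂ))
        - fun f : CuspForm (CongruenceSubgroup.Gamma0 N) ((n : ℤ) + 2) =>
            eichF n f UpperHalfPlane.I ((v 0 : ℤ) : ℂ) ((v 1 : ℤ) : ℂ) := by
      funext f
      simp only [hlam, dualToFun, LinearMap.coe_mk, AddHom.coe_mk, periodFunctional_apply,
        eichCocycle, Pi.sub_apply]
      simp
    rw [hsub]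
    refine Submodule.sub_mem _ (Submodule.span_mono ?_ h1) (Submodule.span_mono ?_ h2)
    · rintro _ ⟨j, rfl⟩
      simp only [Finset.coe_union, Finset.coe_image, Finset.coe_univ, Set.image_univ]
      exact Or.inl ⟨j, rfl⟩
    · rintro _ ⟨j, rfl⟩
      simp only [Finset.coe_union, Finset.coe_image, Finset.coe_univ, Set.image_univ]
      exact Or.inr ⟨j, rfl⟩

end Lattice

end Fermat.Agent.S22
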