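import Mathlib

set_option autoImplicit false

namespace Fermat.Agent.S22

open Polynomial

/-- A complex polynomial vanishing at all integers is zero. -/
theorem polynomial_eq_zero_of_forall_int (p : ℂ[X]) (h : ∀ m : ℤ, p.eval (m : ℂ) = 0) : p = 0 := by
  refine Polynomial.eq_zero_of_infinite_isRoot p ?_
  have hinj : Function.Injective (fun m : ℤ => (m : ℂ)) := Int.cast_injective
  refine Set.Infinite.mono ?_ (Set.infinite_range_of_injective hinj)
  rintro _ ⟨m, rfl⟩
  exact h m

/-- A function of two complex variables which is polynomial in each variable separately and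
vanishes on `ℤ × ℤ` vanishes identically. -/
theorem eq_zero_of_forall_int₂ (Φ : ℂ → ℂ → ℂ)
    (h1 : ∀ y : ℂ, ∃ p : ℂ[X], ∀ x, Φ x y = p.eval x)
    (h2 : ∀ x : ℂ, ∃ p : ℂ[X], ∀ y, Φ x y = p.eval y)
    (h : ∀ x y : ℤ, Φ x y = 0) : ∀ x y : ℂ, Φ x y = 0 := by
  have step1 : ∀ (x : ℂ) (y : ℤ), Φ x y = 0 := by
    intro x y
    obtain ⟨p, hp⟩ := h1 (y : ℂ)
    have : p = 0 := polynomial_eq_zero_of_forall_int p fun m => by rw [← hp, h]
    rw [hp, this, eval_zero]
  intro x y
  obtain ⟨p, hp⟩ := h2 x
  have : p = 0 := polynomial_eq_zero_of_forall_int p fun m => by rw [← hp, step1]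
  rw [hp, this, eval_zero]

/-- A polynomial which is periodic (with nonzero period) on an infinite set is constant. -/
theorem polynomial_const_of_periodic (p : ℂ[X]) {h : ℂ} (hh : h ≠ 0) {S : Set ℂ} (hS : S.Infinite)
    (hp : ∀ z ∈ S, p.eval (z + h) = p.eval z) : ∃ c : ℂ, p = C c := by
  -- `p(X + h) = p(X)` as polynomials
  have hq : p.comp (X + C h) - p = 0 := by
    refine Polynomial.eq_zero_of_infinite_isRoot _ (hS.mono fun z hz => ?_)
    simp [hp z hz]
  have hper : ∀ z : ℂ, p.eval (z + h) = p.eval z := by
    intro z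
    have := congrArg (Polynomial.eval z) hq
    simpa [sub_eq_zero] using this
  -- so `p - p(0)` vanishes at all `m * h`
  have hmul : ∀ m : ℕ, p.eval ((m : ℂ) * h) = p.eval 0 := by
    intro m
    induction m with
    | zero => simp
    | succ m ih =>
      rw [← ih, ← hper ((m : ℂ) * h)]
      congr 1
      push_cast
      ring
  refine ⟨p.eval 0, ?_⟩
  have hzero : p - C (p.eval 0) = 0 := by
    refine Polynomial.eq_zero_of_infinite_isRoot _ ?_
    have hinj : Function.Injective (fun m : ℕ => (m : ℂ) * h) := by
      intro a b hab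
      have := mul_right_cancel₀ hh hab
      exact_mod_cast this
    refine Set.Infinite.mono ?_ (Set.infinite_range_of_injective hinj)
    rintro _ ⟨m, rfl⟩
    simp [hmul m]
  exact sub_eq_zero.mp hzero

/-- Functional version: if `P : ℂ → ℂ` agrees with a polynomial and is periodic with nonzero
period `h` on an infinite set `S` (stable under `z ↦ z + h` is not needed), then the polynomial
is constant; in particular `P` is constant on all of `ℂ`. -/
theorem polynomial_fun_const_of_periodic (p : ℂ[X]) {h : ℂ} (hh : h ≠ 0) {S : Set ℂ}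
    (hS : S.Infinite) (hp : ∀ z ∈ S, p.eval (z + h) = p.eval z) :
    ∀ z : ℂ, p.eval z = p.eval 0 := by
  obtain ⟨c, rfl⟩ := polynomial_const_of_periodic p hh hS hp
  simp

/-- The upper half plane, as a subset of `ℂ`, is infinite. -/
theorem upperHalfPlaneSet_infinite : {z : ℂ | 0 < z.im}.Infinite := by
  have hinj : Function.Injective (fun m : ℕ => ((m : ℂ) + 1) * Complex.I) := by
    intro a b hab
    have := mul_right_cancel₀ Complex.I_ne_zero hab
    have h2 : (a : ℂ) = b := add_right_cancel this
    exact_mod_cast h2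
  refine Set.Infinite.mono ?_ (Set.infinite_range_of_injective hinj)
  rintro _ ⟨m, rfl⟩
  simp only [Set.mem_ofPred_eq, Complex.mul_im, Complex.add_re, Complex.natCast_re, Complex.one_re,
    Complex.I_im, mul_one, Complex.add_im, Complex.natCast_im, Complex.one_im, add_zero,
    Complex.I_re, mul_zero]
  positivity

end Fermat.Agent.S22
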