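-- S22 helper (P5, helper8): SEPARATION.  A cusp form of weight `n + 2` on `Γ₀(N)` all of whose
-- period functionals vanish is zero.  Route: the Eichler integral `G(z) = eichF n f z z 1` is then
-- a holomorphic modular form of weight `-n`, bounded at all cusps, hence constant, and `f` is
-- (up to a constant) its `(n+1)`-st derivative.
import Fermat.Agent.S22.EichlerPrim
import Fermat.Agent.S22.Cocycle
import Fermat.Agent.S22.PolyLemmas
import Fermat.Prelude.Def_CuspForm_HeckeAlgebra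
import Fermat.Prelude.Thm_Subgroup_IsArithmetic_exists_nat_mem_strictPeriods_conj

set_option autoImplicit false

namespace Fermat.Agent.S22.Sep

open UpperHalfPlane hiding I
open Complex MeasureTheory Filter Asymptotics
open scoped MatrixGroups ModularForm Manifold Topology

/-- Holomorphic with uniform exponential decay at `i∞`. -/
def NiceDecay (f : ℍ → ℂ) : Prop :=
  MDiff f ∧ ∃ a : ℝ, 0 < a ∧ f =O[atImInfty] fun τ => Real.exp (-a * τ.im)

/-! ### Interface with `EichlerPrim` (the only part depending on how `primInfty` is set up) -/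

section Interface

/-- The moment primitive: primitive of `f w * w ^ j` vanishing at `i∞`. -/
noncomputable def momPrim (j : ℕ) (f : ℍ → ℂ) (z : ℍ) : ℂ := primInfty (momIntegrand j f) z

theorem eichF_expand' {n : ℕ} {f : ℍ → ℂ} (hf : NiceDecay f) (z : ℍ) (x y : ℂ) :
    eichF n f z x y = ∑ j ∈ Finset.range (n + 1),
      (n.choose j : ℂ) * x ^ (n - j) * (-y) ^ j * momPrim j f z := by
  obtain ⟨hf, a, ha, hfd⟩ := hf
  exact eichF_expand ha hf hfd n x y z

theorem momPrim_hasDerivAt {f : ℍ → ℂ} (hf : NiceDecay f) (j : ℕ) (z : ℍ) :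
    HasDerivAt (fun w : ℂ => momPrim j f (ofComplex w)) (f z * (z : ℂ) ^ j) (z : ℂ) := by
  obtain ⟨hf, a, ha, hfd⟩ := hf
  exact primInfty_hasDerivAt (mdiff_momIntegrand hf j) (vertDecay_momIntegrand ha hf hfd j) z

theorem eichF_eq_integral {n : ℕ} {f : ℍ → ℂ} (_hf : NiceDecay f) (z : ℍ) (x y : ℂ) :
    eichF n f z x y = -(I * ∫ t in Set.Ioi (0 : ℝ),
      f (ofComplex ((z : ℂ) + t * I)) * (x - ((ofComplex ((z : ℂ) + t * I) : ℍ) : ℂ) * y) ^ n) :=
  rfl

theorem eichF_SL_sub_const {n : ℕ} {f : ℍ → ℂ} (δ : SL(2, ℤ)) (hf : NiceDecay f)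
    (hfδ : NiceDecay (f ∣[(n : ℤ) + 2] δ)) (x y : ℂ) (z z' : ℍ) :
    eichF n f (δ • z) (((δ 0 0 : ℤ) : ℂ) * x + ((δ 0 1 : ℤ) : ℂ) * y)
          (((δ 1 0 : ℤ) : ℂ) * x + ((δ 1 1 : ℤ) : ℂ) * y)
        - eichF n (f ∣[(n : ℤ) + 2] δ) z x y =
      eichF n f (δ • z') (((δ 0 0 : ℤ) : ℂ) * x + ((δ 0 1 : ℤ) : ℂ) * y)
          (((δ 1 0 : ℤ) : ℂ) * x + ((δ 1 1 : ℤ) : ℂ) * y)
        - eichF n (f ∣[(n : ℤ) + 2] δ) z' x y := by
  obtain ⟨hf, a, ha, hfd⟩ := hf
  obtain ⟨-, b, hb, hgd⟩ := hfδ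
  have hdet : 0 < (Matrix.SpecialLinearGroup.mapGL ℝ δ).det.val := by simp
  obtain ⟨c, hc⟩ := eichF_smul_sub_const ha hb hf hfd n (Matrix.SpecialLinearGroup.mapGL ℝ δ)
    hdet hgd x y
  have e : ∀ i j : Fin 2, ((Matrix.SpecialLinearGroup.mapGL ℝ δ i j : ℝ) : ℂ) = ((δ i j : ℤ) : ℂ) := by
    intro i j
    simp
  simp only [e] at hc
  exact (hc z).trans (hc z').symm

end Interface
/-- Homogeneity of `eichF` in `(x, y)`. -/
theorem eichF_smul_smul {n : ℕ} {f : ℍ → ℂ} (hf : NiceDecay f) (z : ℍ) (c x y : ℂ) :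
    eichF n f z (c * x) (c * y) = c ^ n * eichF n f z x y := by
  rw [eichF_expand' hf, eichF_expand' hf, Finset.mul_sum]
  refine Finset.sum_congr rfl fun j hj => ?_
  have hj' : j ≤ n := Nat.lt_succ_iff.mp (Finset.mem_range.mp hj)
  have : c ^ n = c ^ (n - j) * c ^ j := by rw [← pow_add, Nat.sub_add_cancel hj']
  rw [this, mul_pow, neg_pow (c * y), mul_pow, neg_pow y]
  ring

/-- The Eichler integral of `f` (an `(n+1)`-fold primitive of `f`, up to a constant). -/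
noncomputable def eichG (n : ℕ) (f : ℍ → ℂ) (z : ℍ) : ℂ := eichF n f z z 1

theorem im_add_mul_I_pos (z : ℍ) {t : ℝ} (ht : 0 < t) : 0 < ((z : ℂ) + t * Complex.I).im := by
  have : ((z : ℂ) + t * Complex.I).im = z.im + t := by simp
  rw [this]
  linarith [z.im_pos]

theorem coe_ofComplex_add_mul_I (z : ℍ) {t : ℝ} (ht : 0 < t) :
    ((ofComplex ((z : ℂ) + t * Complex.I) : ℍ) : ℂ) = (z : ℂ) + t * Complex.I := by
  rw [ofComplex_apply_of_im_pos (im_add_mul_I_pos z ht)]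

theorem eichG_eq_integral {n : ℕ} {f : ℍ → ℂ} (hf : NiceDecay f) (z : ℍ) :
    eichG n f z = -(Complex.I * ∫ t in Set.Ioi (0 : ℝ),
      f (ofComplex ((z : ℂ) + t * Complex.I)) * (-(t * Complex.I)) ^ n) := by
  unfold eichG
  rw [eichF_eq_integral hf]
  congr 2
  apply setIntegral_congr_fun measurableSet_Ioi
  intro t ht
  simp only [Set.mem_Ioi] at ht
  simp only [coe_ofComplex_add_mul_I z ht]
  ring_nf

theorem integrableOn_pow_mul_exp_neg_mul (n : ℕ) {a : ℝ} (ha : 0 < a) :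
    IntegrableOn (fun t : ℝ => t ^ n * Real.exp (-a * t)) (Set.Ioi 0) := by
  have h := integrableOn_rpow_mul_exp_neg_mul_rpow (p := 1) (s := n) (b := a)
    (by have : (0 : ℝ) ≤ n := Nat.cast_nonneg n; linarith) one_pos ha
  refine h.congr_fun (fun t _ => ?_) measurableSet_Ioi
  simp only [Real.rpow_natCast, Real.rpow_one]

theorem isBoundedAtImInfty_eichG (n : ℕ) {f : ℍ → ℂ} (hf : NiceDecay f) :
    IsBoundedAtImInfty (eichG n f) := by
  have hf' := hf
  obtain ⟨-, a, ha, hO⟩ := hf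
  rw [Asymptotics.isBigO_iff] at hO
  obtain ⟨C, hC⟩ := hO
  rw [Filter.eventually_iff, atImInfty_mem] at hC
  obtain ⟨A, hA⟩ := hC
  rw [isBoundedAtImInfty_iff]
  refine ⟨|C| * ∫ t in Set.Ioi (0 : ℝ), t ^ n * Real.exp (-a * t), max A 0, fun z hz => ?_⟩
  have hzA : A ≤ z.im := le_trans (le_max_left _ _) hz
  have hz0 : 0 ≤ z.im := le_trans (le_max_right _ _) hz
  rw [eichG_eq_integral hf', norm_neg, norm_mul, Complex.norm_I, one_mul,
    ← integral_const_mul]
  refine norm_integral_le_of_norm_le ((integrableOn_pow_mul_exp_neg_mul n ha).const_mul _) ?_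
  refine (ae_restrict_iff' measurableSet_Ioi).mpr (Filter.Eventually.of_forall fun t ht => ?_)
  simp only [Set.mem_Ioi] at ht
  have him : (ofComplex ((z : ℂ) + t * Complex.I)).im = z.im + t := by
    rw [← UpperHalfPlane.coe_im, coe_ofComplex_add_mul_I z ht]; simp
  have h1 : ‖f (ofComplex ((z : ℂ) + t * Complex.I))‖ ≤ |C| * Real.exp (-a * t) := by
    have := hA (ofComplex ((z : ℂ) + t * Complex.I)) (by rw [him]; linarith)
    simp only [Set.mem_ofPred_eq] at this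
    refine this.trans ?_
    rw [Real.norm_eq_abs, abs_of_pos (Real.exp_pos _), him]
    refine mul_le_mul (le_abs_self C) ?_ (Real.exp_pos _).le (abs_nonneg C)
    apply Real.exp_le_exp.mpr
    nlinarith
  rw [norm_mul, norm_pow, norm_neg, norm_mul, Complex.norm_I, mul_one, Complex.norm_real,
    Real.norm_eq_abs, abs_of_pos ht]
  calc ‖f (ofComplex ((z : ℂ) + t * Complex.I))‖ * t ^ n
      ≤ (|C| * Real.exp (-a * t)) * t ^ n := by gcongr
    _ = |C| * (t ^ n * Real.exp (-a * t)) := by ring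

theorem denom_SL_eq (δ : SL(2, ℤ)) (z : ℍ) :
    denom δ z = ((δ 1 0 : ℤ) : ℂ) * z + ((δ 1 1 : ℤ) : ℂ) := by
  simp [denom]

theorem denom_mul_coe_smul (δ : SL(2, ℤ)) (z : ℍ) :
    denom δ z * ((δ • z : ℍ) : ℂ) = ((δ 0 0 : ℤ) : ℂ) * z + ((δ 0 1 : ℤ) : ℂ) := by
  have h := denom_ne_zero δ z
  rw [coe_specialLinearGroup_apply]
  rw [denom_SL_eq] at h ⊢
  simp only [algebraMap_int_eq, eq_intCast, ofReal_intCast]
  field_simp

theorem eichG_slash_apply {n : ℕ} {f : ℍ → ℂ} (hf : NiceDecay f) (δ : SL(2, ℤ)) (z : ℍ) :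
    (eichG n f ∣[-(n : ℤ)] δ) z =
      eichF n f (δ • z) (((δ 0 0 : ℤ) : ℂ) * z + ((δ 0 1 : ℤ) : ℂ))
        (((δ 1 0 : ℤ) : ℂ) * z + ((δ 1 1 : ℤ) : ℂ)) := by
  rw [ModularForm.SL_slash_apply, neg_neg, zpow_natCast]
  unfold eichG
  rw [← denom_mul_coe_smul, ← denom_SL_eq]
  conv_rhs => rw [← mul_one (denom δ z)]
  rw [mul_one (denom δ z)]
  have := eichF_smul_smul (n := n) hf (δ • z) (denom δ z) ((δ • z : ℍ) : ℂ) 1
  rw [mul_one] at this
  rw [this, mul_comm]

theorem eichG_vadd {n : ℕ} {f : ℍ → ℂ} (hfd : NiceDecay f) {h : ℝ}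
    (hf : ∀ w : ℍ, f (h +ᵥ w) = f w) (z : ℍ) :
    eichG n f (h +ᵥ z) = eichG n f z := by
  rw [eichG_eq_integral hfd, eichG_eq_integral hfd]
  congr 2
  apply setIntegral_congr_fun measurableSet_Ioi
  intro t ht
  simp only [Set.mem_Ioi] at ht
  have : ofComplex (((h +ᵥ z : ℍ) : ℂ) + t * Complex.I) = h +ᵥ ofComplex ((z : ℂ) + t * Complex.I) := by
    ext1
    rw [coe_ofComplex_add_mul_I (h +ᵥ z) ht, coe_vadd, coe_vadd, coe_ofComplex_add_mul_I z ht]
    ring
  simp only [this, hf]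


section PeriodPoly

open Polynomial

/-- The "period polynomial" of `f` along `δ ∈ SL(2,ℤ)`. -/
theorem exists_polynomial_eichF_SL {n : ℕ} {f : ℍ → ℂ} (δ : SL(2, ℤ)) (hf : NiceDecay f)
    (hfδ : NiceDecay (f ∣[(n : ℤ) + 2] δ)) :
    ∃ P : ℂ[X], ∀ (z : ℍ) (x : ℂ),
      eichF n f (δ • z) (((δ 0 0 : ℤ) : ℂ) * x + ((δ 0 1 : ℤ) : ℂ))
          (((δ 1 0 : ℤ) : ℂ) * x + ((δ 1 1 : ℤ) : ℂ))
        - eichF n (f ∣[(n : ℤ) + 2] δ) z x 1 = P.eval x := by
  set z0 : ℍ := UpperHalfPlane.I with hz0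
  set J1 : ℕ → ℂ := fun j => momPrim j f (δ • z0) with hJ1
  set J2 : ℕ → ℂ := fun j => momPrim j (f ∣[(n : ℤ) + 2] δ) z0 with hJ2
  refine ⟨∑ j ∈ Finset.range (n + 1), C ((n.choose j : ℂ) * J1 j) *
        (C ((δ 0 0 : ℤ) : ℂ) * X + C ((δ 0 1 : ℤ) : ℂ)) ^ (n - j) *
        (-(C ((δ 1 0 : ℤ) : ℂ) * X + C ((δ 1 1 : ℤ) : ℂ))) ^ j
      - ∑ j ∈ Finset.range (n + 1), C ((n.choose j : ℂ) * (-1) ^ j * J2 j) * X ^ (n - j), ?_⟩
  intro z x
  have h := eichF_SL_sub_const δ hf hfδ x 1 z z0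
  simp only [mul_one] at h
  rw [h, eichF_expand' hf, eichF_expand' hfδ]
  simp only [eval_sub, eval_finsetSum, eval_mul, eval_C, eval_pow, eval_add, eval_X, eval_neg]
  congr 1
  · refine Finset.sum_congr rfl fun j _ => ?_
    simp only [hJ1]; ring
  · refine Finset.sum_congr rfl fun j _ => ?_
    simp only [hJ2]; ring

end PeriodPoly

section CuspFormDecay

open CongruenceSubgroup Matrix.SpecialLinearGroup
open scoped Pointwise

variable {N : ℕ} [NeZero N] {k : ℤ}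

theorem exists_mem_strictPeriods_conj (N : ℕ) [NeZero N] :
    ∃ M : ℕ, 0 < M ∧ ∀ δ : SL(2, ℤ), (M : ℝ) ∈ (ConjAct.toConjAct (mapGL ℝ δ)⁻¹ •
      ((Gamma0 N : Subgroup SL(2, ℤ)) : Subgroup (GL (Fin 2) ℝ))).strictPeriods := by
  obtain ⟨M, hM, hper⟩ := Subgroup.IsArithmetic.exists_nat_mem_strictPeriods_conj
    ((Gamma0 N : Subgroup SL(2, ℤ)) : Subgroup (GL (Fin 2) ℝ))
  refine ⟨M, hM, fun δ => ?_⟩
  have := hper δ⁻¹
  rwa [map_inv] at this

theorem exists_period_slash (f : CuspForm (Gamma0 N) k) :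
    ∃ M : ℕ, 0 < M ∧ ∀ δ : SL(2, ℤ),
      (⇑f ∣[k] δ) =O[atImInfty] (fun τ => Real.exp (-(2 * Real.pi / M) * τ.im)) ∧
      ∀ w : ℍ, (⇑f ∣[k] δ) ((M : ℝ) +ᵥ w) = (⇑f ∣[k] δ) w := by
  obtain ⟨M, hM, hmem⟩ := exists_mem_strictPeriods_conj N
  refine ⟨M, hM, fun δ => ?_⟩
  have hM' : (0 : ℝ) < M := by exact_mod_cast hM
  constructor
  · have := CuspFormClass.exp_decay_atImInfty (CuspForm.translate f (mapGL ℝ δ)) hM' (hmem δ)
    refine this.congr_right fun τ => ?_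
    congr 1; ring
  · intro w
    exact SlashInvariantForm.vAdd_apply_of_mem_strictPeriods
      (CuspForm.translate f (mapGL ℝ δ)) w (hmem δ)

theorem niceDecay_slash (f : CuspForm (Gamma0 N) k) (δ : SL(2, ℤ)) : NiceDecay (⇑f ∣[k] δ) := by
  obtain ⟨M, hM, h⟩ := exists_period_slash f
  refine ⟨(CuspFormClass.holo f).slash k _, 2 * Real.pi / M, ?_, (h δ).1⟩
  have hM' : (0 : ℝ) < M := by exact_mod_cast hM
  positivity

theorem niceDecay_cuspForm (f : CuspForm (Gamma0 N) k) : NiceDecay ⇑f := by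
  have := niceDecay_slash f 1
  simpa using this

end CuspFormDecay

section Descent

open Finset

/-- `J_j`, extended to `ℂ` via `ofComplex`. -/
noncomputable def Jc (f : ℍ → ℂ) (j : ℕ) (w : ℂ) : ℂ :=
  momPrim j f (ofComplex w)

/-- The Eichler integral of exponent `m`, extended to `ℂ`. -/
noncomputable def Gc (f : ℍ → ℂ) (m : ℕ) (w : ℂ) : ℂ :=
  ∑ j ∈ range (m + 1), (m.choose j : ℂ) * w ^ (m - j) * (-1) ^ j * Jc f j w

theorem hasDerivAt_Jc {f : ℍ → ℂ} (hf : NiceDecay f) (j : ℕ) {w : ℂ} (hw : 0 < w.im) :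
    HasDerivAt (Jc f j) (f (ofComplex w) * w ^ j) w := by
  have h := momPrim_hasDerivAt hf j ⟨w, hw⟩
  have e : ofComplex w = ⟨w, hw⟩ := ofComplex_apply_of_im_pos hw
  rw [e]
  exact h

theorem eichG_eq_Gc {f : ℍ → ℂ} (hf : NiceDecay f) (m : ℕ) (z : ℍ) :
    eichG m f z = Gc f m (z : ℂ) := by
  unfold eichG Gc Jc
  rw [eichF_expand' hf, ofComplex_apply]

theorem hasDerivAt_Gc_zero {f : ℍ → ℂ} (hf : NiceDecay f) {w : ℂ} (hw : 0 < w.im) :
    HasDerivAt (Gc f 0) (f (ofComplex w)) w := by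
  have h := hasDerivAt_Jc hf 0 hw
  simp only [pow_zero, mul_one] at h
  have e : Gc f 0 = Jc f 0 := by
    funext w; simp [Gc]
  rw [e]; exact h

theorem hasDerivAt_Gc_succ {f : ℍ → ℂ} (hf : NiceDecay f) (m : ℕ) {w : ℂ} (hw : 0 < w.im) :
    HasDerivAt (Gc f (m + 1)) (((m : ℂ) + 1) * Gc f m w) w := by
  set F : ℂ := f (ofComplex w) with hF
  have h1 : ∀ j ∈ range (m + 2), HasDerivAt
      (fun w => ((m + 1).choose j : ℂ) * w ^ (m + 1 - j) * (-1) ^ j * Jc f j w)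
      ((((m + 1).choose j : ℂ) * (((m + 1 - j : ℕ) : ℂ) * w ^ (m + 1 - j - 1)) * (-1) ^ j) * Jc f j w
        + (((m + 1).choose j : ℂ) * w ^ (m + 1 - j) * (-1) ^ j) * (F * w ^ j)) w := by
    intro j _
    exact (((hasDerivAt_pow (m + 1 - j) w).const_mul _).mul_const _).mul (hasDerivAt_Jc hf j hw)
  have h2 := HasDerivAt.fun_sum h1
  have hB : ∑ j ∈ range (m + 2), (((m + 1).choose j : ℂ) * w ^ (m + 1 - j) * (-1) ^ j) * (F * w ^ j)
      = 0 := by
    have : ∀ j ∈ range (m + 2), (((m + 1).choose j : ℂ) * w ^ (m + 1 - j) * (-1) ^ j) * (F * w ^ j)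
        = (F * w ^ (m + 1)) * ((-1) ^ j * ((m + 1).choose j : ℂ)) := by
      intro j hj
      have hj' : j ≤ m + 1 := Nat.lt_succ_iff.mp (mem_range.mp hj)
      have : w ^ (m + 1) = w ^ (m + 1 - j) * w ^ j := by
        rw [← pow_add, Nat.sub_add_cancel hj']
      rw [this]; ring
    rw [Finset.sum_congr rfl this, ← Finset.mul_sum]
    have halt := Int.alternating_sum_range_choose_of_ne (n := m + 1) (Nat.succ_ne_zero m)
    have halt' : ∑ j ∈ range (m + 2), ((-1 : ℂ) ^ j * ((m + 1).choose j : ℂ)) = 0 := by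
      have := congrArg (Int.cast : ℤ → ℂ) halt
      push_cast at this
      exact this
    rw [halt', mul_zero]
  have hA : ∑ j ∈ range (m + 2),
      (((m + 1).choose j : ℂ) * (((m + 1 - j : ℕ) : ℂ) * w ^ (m + 1 - j - 1)) * (-1) ^ j) * Jc f j w
      = ((m : ℂ) + 1) * Gc f m w := by
    rw [Finset.sum_range_succ]
    have hlast : (((m + 1).choose (m + 1) : ℂ) * (((m + 1 - (m + 1) : ℕ) : ℂ) *
        w ^ (m + 1 - (m + 1) - 1)) * (-1) ^ (m + 1)) * Jc f (m + 1) w = 0 := by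
      simp
    rw [hlast, add_zero]
    unfold Gc
    rw [Finset.mul_sum]
    refine Finset.sum_congr rfl fun j hj => ?_
    have hj' : j ≤ m := Nat.lt_succ_iff.mp (mem_range.mp hj)
    have hch : ((m + 1).choose j : ℂ) * ((m + 1 - j : ℕ) : ℂ) = ((m : ℂ) + 1) * (m.choose j : ℂ) := by
      have := Nat.choose_mul_succ_eq m j
      have h' : ((m.choose j * (m + 1) : ℕ) : ℂ) = (((m + 1).choose j * (m + 1 - j) : ℕ) : ℂ) := by
        rw [this]
      push_cast at h'
      rw [← h']; ring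
    have hexp : m + 1 - j - 1 = m - j := by omega
    rw [hexp]
    calc ((m + 1).choose j : ℂ) * (((m + 1 - j : ℕ) : ℂ) * w ^ (m - j)) * (-1) ^ j * Jc f j w
        = (((m + 1).choose j : ℂ) * ((m + 1 - j : ℕ) : ℂ)) * w ^ (m - j) * (-1) ^ j * Jc f j w := by
          ring
      _ = ((m : ℂ) + 1) * ((m.choose j : ℂ) * w ^ (m - j) * (-1) ^ j * Jc f j w) := by
          rw [hch]; ring
  have e : Gc f (m + 1) = fun w => ∑ j ∈ range (m + 2),
      ((m + 1).choose j : ℂ) * w ^ (m + 1 - j) * (-1) ^ j * Jc f j w := by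
    funext w; rfl
  have h3 : HasDerivAt (Gc f (m + 1)) (∑ i ∈ range (m + 2),
      (((m + 1).choose i : ℂ) * (((m + 1 - i : ℕ) : ℂ) * w ^ (m + 1 - i - 1)) * (-1) ^ i * Jc f i w +
        ((m + 1).choose i : ℂ) * w ^ (m + 1 - i) * (-1) ^ i * (F * w ^ i))) w := by
    rw [e]; exact h2
  rw [Finset.sum_add_distrib, hB, add_zero, hA] at h3
  exact h3

/-- If the Eichler integral of exponent `m` is constant on `ℍ`, then `f = 0`. -/
theorem eq_zero_of_Gc_const {f : ℍ → ℂ} (hf : NiceDecay f) :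
    ∀ (m : ℕ) (c : ℂ), (∀ w : ℂ, 0 < w.im → Gc f m w = c) → ∀ z : ℍ, f z = 0 := by
  have hopen : IsOpen {w : ℂ | 0 < w.im} := isOpen_lt continuous_const Complex.continuous_im
  have key : ∀ (m : ℕ) (c : ℂ), (∀ w : ℂ, 0 < w.im → Gc f m w = c) →
      ∀ w : ℂ, 0 < w.im → ∀ D : ℂ, HasDerivAt (Gc f m) D w → D = 0 := by
    intro m c hc w hw D hD
    have hev : Gc f m =ᶠ[𝓝 w] fun _ => c := by
      filter_upwards [hopen.mem_nhds hw] with u hu
      exact hc u hu
    have h0 : HasDerivAt (fun _ : ℂ => c) D w := hD.congr_of_eventuallyEq hev.symm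
    exact h0.unique (hasDerivAt_const w c)
  intro m
  induction m with
  | zero =>
    intro c hc z
    have := key 0 c hc (z : ℂ) z.im_pos _ (hasDerivAt_Gc_zero hf z.im_pos)
    rwa [ofComplex_apply] at this
  | succ m ih =>
    intro c hc
    refine ih 0 fun w hw => ?_
    have := key (m + 1) c hc w hw _ (hasDerivAt_Gc_succ hf m hw)
    have hne : ((m : ℂ) + 1) ≠ 0 := by
      have : ((m + 1 : ℕ) : ℂ) ≠ 0 := Nat.cast_ne_zero.mpr (Nat.succ_ne_zero m)
      push_cast at this; exact this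
    exact (mul_eq_zero.mp this).resolve_left hne

theorem eq_zero_of_eichG_const {n : ℕ} {f : ℍ → ℂ} (hf : NiceDecay f) (c : ℂ)
    (h : ∀ z : ℍ, eichG n f z = c) : ∀ z : ℍ, f z = 0 := by
  refine eq_zero_of_Gc_const hf n c fun w hw => ?_
  have := h ⟨w, hw⟩
  rwa [eichG_eq_Gc hf] at this

end Descent

section Main

open CongruenceSubgroup Matrix.SpecialLinearGroup Polynomial
open scoped Pointwise

variable {N : ℕ} [NeZero N] (n : ℕ)

/-- All the period functionals `λ_{γ,(x,y)}`, `γ ∈ Γ₀(N)`, `(x,y) ∈ ℤ²`, vanish on `f`. -/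
def PeriodsVanish (f : CuspForm (Gamma0 N) ((n : ℤ) + 2)) : Prop :=
  ∀ γ ∈ Gamma0 N, ∀ x y : ℤ,
    eichF n f (γ • UpperHalfPlane.I) (((γ 0 0 : ℤ) : ℂ) * x + ((γ 0 1 : ℤ) : ℂ) * y)
      (((γ 1 0 : ℤ) : ℂ) * x + ((γ 1 1 : ℤ) : ℂ) * y) = eichF n f UpperHalfPlane.I x y

variable {n}

omit [NeZero N] in
theorem slash_eq_of_mem_Gamma0 {k : ℤ} (f : CuspForm (Gamma0 N) k) {γ : SL(2, ℤ)}
    (hγ : γ ∈ Gamma0 N) : ⇑f ∣[k] γ = ⇑f :=
  SlashInvariantFormClass.slash_action_eq f (mapGL ℝ γ) (Subgroup.mem_map_of_mem _ hγ)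

theorem eichG_slash_eq_of_periodsVanish (f : CuspForm (Gamma0 N) ((n : ℤ) + 2))
    (h : PeriodsVanish n f) {γ : SL(2, ℤ)} (hγ : γ ∈ Gamma0 N) :
    eichG n f ∣[-(n : ℤ)] γ = eichG n f := by
  funext z
  rw [eichG_slash_apply (niceDecay_cuspForm f)]
  have hinv := slash_eq_of_mem_Gamma0 f hγ
  obtain ⟨P, hP⟩ := exists_polynomial_eichF_SL (n := n) γ (niceDecay_cuspForm f)
    (by rw [hinv]; exact niceDecay_cuspForm f)
  rw [hinv] at hP
  have hP0 : P = 0 := by
    refine polynomial_eq_zero_of_forall_int P fun m => ?_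
    rw [← hP UpperHalfPlane.I m]
    have := h γ hγ m 1
    simp only [Int.cast_one, mul_one] at this
    rw [this, sub_self]
  have := hP z z
  rw [hP0, eval_zero, sub_eq_zero] at this
  exact this

/-- `eichG n f` as a slash invariant form of weight `-n`. -/
noncomputable def eichGSIF (f : CuspForm (Gamma0 N) ((n : ℤ) + 2)) (h : PeriodsVanish n f)
    (k' : ℤ) (hk' : k' = -(n : ℤ)) :
    SlashInvariantForm ((Gamma0 N : Subgroup SL(2, ℤ)) : Subgroup (GL (Fin 2) ℝ)) k' where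
  toFun := eichG n f
  slash_action_eq' := by
    rintro _ ⟨γ, hγ, rfl⟩
    rw [hk']
    exact eichG_slash_eq_of_periodsVanish f h hγ

theorem mdifferentiable_eichG {f : ℍ → ℂ} (hf : NiceDecay f) (m : ℕ) : MDiff (eichG m f) := by
  rw [UpperHalfPlane.mdifferentiable_iff]
  have hd : DifferentiableOn ℂ (Gc f m) {w : ℂ | 0 < w.im} := by
    intro w hw
    rcases m with _ | m
    · exact (hasDerivAt_Gc_zero hf hw).differentiableAt.differentiableWithinAt
    · exact (hasDerivAt_Gc_succ hf m hw).differentiableAt.differentiableWithinAt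
  refine hd.congr fun w hw => ?_
  simp only [Function.comp_apply]
  rw [eichG_eq_Gc hf, ofComplex_apply_of_im_pos hw]

theorem isBoundedAtImInfty_eichG_slash (f : CuspForm (Gamma0 N) ((n : ℤ) + 2))
    (h : PeriodsVanish n f) (δ : SL(2, ℤ)) :
    IsBoundedAtImInfty (eichG n f ∣[-(n : ℤ)] δ) := by
  obtain ⟨P, hP⟩ := exists_polynomial_eichF_SL (n := n) δ (niceDecay_cuspForm f)
    (niceDecay_slash f δ)
  have key : ∀ z : ℍ, (eichG n f ∣[-(n : ℤ)] δ) z =
      eichG n (⇑f ∣[(n : ℤ) + 2] δ) z + P.eval (z : ℂ) := by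
    intro z
    rw [eichG_slash_apply (niceDecay_cuspForm f)]
    have := hP z z
    unfold eichG
    linear_combination this
  obtain ⟨M, hM, hmem⟩ := exists_mem_strictPeriods_conj N
  have per1 : ∀ z : ℍ, (eichG n f ∣[-(n : ℤ)] δ) ((M : ℝ) +ᵥ z) = (eichG n f ∣[-(n : ℤ)] δ) z :=
    fun z => SlashInvariantForm.vAdd_apply_of_mem_strictPeriods
      (SlashInvariantForm.translate (eichGSIF f h (-(n : ℤ)) rfl) (mapGL ℝ δ)) z (hmem δ)
  have per2 : ∀ w : ℍ, (⇑f ∣[(n : ℤ) + 2] δ) ((M : ℝ) +ᵥ w) = (⇑f ∣[(n : ℤ) + 2] δ) w :=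
    fun w => SlashInvariantForm.vAdd_apply_of_mem_strictPeriods
      (CuspForm.translate f (mapGL ℝ δ)) w (hmem δ)
  have per3 := eichG_vadd (n := n) (niceDecay_slash f δ) per2
  have hMne : ((M : ℝ) : ℂ) ≠ 0 := by
    have : (M : ℝ) ≠ 0 := by exact_mod_cast hM.ne'
    exact_mod_cast this
  have hconst := polynomial_fun_const_of_periodic P hMne upperHalfPlaneSet_infinite
    (fun w hw => by
      set z : ℍ := ⟨w, hw⟩ with hz
      have hzw : (z : ℂ) = w := rfl
      have h1 := key ((M : ℝ) +ᵥ z)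
      rw [per1, per3, key z, coe_vadd] at h1
      have h2 := add_left_cancel h1
      rw [← hzw, add_comm]; exact h2.symm)
  have hfun : (eichG n f ∣[-(n : ℤ)] δ) =
      eichG n (⇑f ∣[(n : ℤ) + 2] δ) + fun _ => P.eval 0 := by
    funext z
    rw [key z, hconst]; rfl
  rw [hfun]
  exact (isBoundedAtImInfty_eichG n (niceDecay_slash f δ)).add
    (Filter.const_boundedAtFilter _ _)

/-- `eichG n f` as a modular form of weight `-n`. -/
noncomputable def eichGForm (f : CuspForm (Gamma0 N) ((n : ℤ) + 2)) (h : PeriodsVanish n f)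
    (k' : ℤ) (hk' : k' = -(n : ℤ)) :
    ModularForm ((Gamma0 N : Subgroup SL(2, ℤ)) : Subgroup (GL (Fin 2) ℝ)) k' where
  toSlashInvariantForm := eichGSIF f h k' hk'
  holo' := mdifferentiable_eichG (niceDecay_cuspForm f) n
  bdd_at_cusps' := by
    intro c hc
    have hc' : IsCusp c (mapGL ℝ : SL(2, ℤ) →* GL (Fin 2) ℝ).range :=
      hc.mono (Subgroup.map_le_range _ _)
    rw [OnePoint.isBoundedAt_iff_forall_SL2Z hc']
    intro δ _
    subst hk'
    exact isBoundedAtImInfty_eichG_slash f h δ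

/-- **Separation**: a cusp form all of whose period functionals vanish is zero. -/
theorem eq_zero_of_periodsVanish (f : CuspForm (Gamma0 N) ((n : ℤ) + 2))
    (h : PeriodsVanish n f) : f = 0 := by
  have hz : ∀ z : ℍ, f z = 0 := by
    rcases Nat.eq_zero_or_pos n with hn | hn
    · subst hn
      obtain ⟨c, hc⟩ := ModularForm.eq_const_of_weight_zero (eichGForm f h 0 (by simp))
      refine eq_zero_of_eichG_const (n := 0) (niceDecay_cuspForm f) c fun z => ?_
      exact congrFun hc z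
    · have h0 := ModularForm.isZero_of_neg_weight (k := -(n : ℤ))
        (by have : (0 : ℤ) < n := by exact_mod_cast hn
            linarith) (eichGForm f h (-(n : ℤ)) rfl)
      refine eq_zero_of_eichG_const (n := n) (niceDecay_cuspForm f) 0 fun z => ?_
      exact congrFun (congrArg DFunLike.coe h0) z
  ext z
  exact hz z

end Main

end Fermat.Agent.S22.Sep

namespace Fermat.Agent.S22

open UpperHalfPlane hiding I
open scoped MatrixGroups ModularForm

/-- **(P5) Separation**: the period lattice separates the points of `S_{n+2}(Γ₀(N))`. -/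
theorem periodLattice_separating (N : ℕ) [NeZero N] (n : ℕ)
    (f : CuspForm (CongruenceSubgroup.Gamma0 N) ((n : ℤ) + 2))
    (h : ∀ φ ∈ periodLattice N n, φ f = 0) : f = 0 := by
  refine Sep.eq_zero_of_periodsVanish f fun γ hγ x y => ?_
  have h1 := h _ (periodFunctional_mem_periodLattice N n hγ ![x, y])
  rw [periodFunctional_apply] at h1
  unfold eichCocycle at h1
  have e : ∀ i j : Fin 2,
      ((Matrix.SpecialLinearGroup.mapGL ℝ γ i j : ℝ) : ℂ) = ((γ i j : ℤ) : ℂ) := by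
    intro i j
    simp
  simp only [e, Matrix.cons_val_zero, Matrix.cons_val_one] at h1
  exact sub_eq_zero.mp h1

end Fermat.Agent.S22
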