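-- S22 helper: exponential decay at `i∞` of cusp forms of level `Gamma0 N`, of their translates
-- by `SL(2,ℤ)` and by upper triangular matrices of positive determinant (e.g. Hecke matrices).
import Mathlib
import Fermat.Prelude.Def_ModularForm_HeckeOperator

set_option autoImplicit false

namespace Fermat.Agent.S22

open UpperHalfPlane hiding I
open Complex Filter Topology Asymptotics
open scoped Manifold ModularForm MatrixGroups
open Matrix.SpecialLinearGroup ModularForm

/-- `f` decays exponentially at `i∞`. -/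
def ExpDecay (f : ℍ → ℂ) : Prop :=
  ∃ a : ℝ, 0 < a ∧ f =O[atImInfty] fun τ => Real.exp (-a * τ.im)

theorem ExpDecay.add {f g : ℍ → ℂ} (hf : ExpDecay f) (hg : ExpDecay g) : ExpDecay (f + g) := by
  obtain ⟨a, ha, hfa⟩ := hf
  obtain ⟨b, hb, hgb⟩ := hg
  refine ⟨min a b, lt_min ha hb, ?_⟩
  have h1 : (fun τ : ℍ => Real.exp (-a * τ.im)) =O[atImInfty]
      fun τ => Real.exp (-(min a b) * τ.im) := by
    refine IsBigO.of_bound 1 (Eventually.of_forall fun τ => ?_)
    rw [Real.norm_of_nonneg (Real.exp_pos _).le, Real.norm_of_nonneg (Real.exp_pos _).le, one_mul]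
    apply Real.exp_le_exp.mpr
    have := τ.im_pos
    have := min_le_left a b
    nlinarith
  have h2 : (fun τ : ℍ => Real.exp (-b * τ.im)) =O[atImInfty]
      fun τ => Real.exp (-(min a b) * τ.im) := by
    refine IsBigO.of_bound 1 (Eventually.of_forall fun τ => ?_)
    rw [Real.norm_of_nonneg (Real.exp_pos _).le, Real.norm_of_nonneg (Real.exp_pos _).le, one_mul]
    apply Real.exp_le_exp.mpr
    have := τ.im_pos
    have := min_le_right a b
    nlinarith
  exact (hfa.trans h1).add (hgb.trans h2)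

theorem ExpDecay.const_smul {f : ℍ → ℂ} (hf : ExpDecay f) (c : ℂ) : ExpDecay (c • f) := by
  obtain ⟨a, ha, hfa⟩ := hf
  exact ⟨a, ha, hfa.const_smul_left c⟩

theorem ExpDecay.sum {ι : Type*} (s : Finset ι) {F : ι → ℍ → ℂ} (hF : ∀ i ∈ s, ExpDecay (F i)) :
    ExpDecay (∑ i ∈ s, F i) := by
  classical
  induction s using Finset.induction_on with
  | empty =>
    refine ⟨1, one_pos, ?_⟩
    simp only [Finset.sum_empty]
    exact isBigO_zero _ _
  | insert i t hi IH =>
    rw [Finset.sum_insert hi]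
    exact (hF i (Finset.mem_insert_self i t)).add
      (IH fun j hj => hF j (Finset.mem_insert_of_mem hj))

/-- Cusp forms for arithmetic subgroups decay exponentially at `i∞`. -/
theorem expDecay_of_cuspForm {Γ : Subgroup (GL (Fin 2) ℝ)} [Γ.IsArithmetic] {k : ℤ}
    (f : CuspForm Γ k) : ExpDecay f := by
  obtain ⟨c, hc, h⟩ := CuspFormClass.exp_decay_atImInfty' (Γ := Γ) (k := k) f
  exact ⟨c, hc, h⟩

open ConjAct Pointwise in
/-- Translates by `SL(2,ℤ)` of cusp forms for arithmetic subgroups decay exponentially at `i∞`. -/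
theorem expDecay_slash_SL {Γ : Subgroup (GL (Fin 2) ℝ)} [Γ.IsArithmetic] {k : ℤ}
    (f : CuspForm Γ k) (d : SL(2, ℤ)) : ExpDecay ((f : ℍ → ℂ) ∣[k] (mapGL ℝ d)) := by
  have : ((toConjAct (mapGL ℝ d : GL (Fin 2) ℝ)⁻¹) • Γ).IsArithmetic := by
    simpa [(show Rat.castHom ℝ = algebraMap ℚ ℝ by rfl), map_inv, map_mapGL]
      using! Subgroup.IsArithmetic.conj Γ (mapGL ℚ d)⁻¹
  exact expDecay_of_cuspForm (CuspForm.translate f (mapGL ℝ d : GL (Fin 2) ℝ))

/-- Imaginary part of the image under an upper triangular matrix of positive determinant. -/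
theorem im_upper_smul (g : GL (Fin 2) ℝ) (hg : 0 < g.det.val) (hc : g 1 0 = 0) (τ : ℍ) :
    (g • τ).im = g 0 0 / g 1 1 * τ.im := by
  have hdet : g 0 0 * g 1 1 > 0 := by
    have := hg
    rw [Matrix.GeneralLinearGroup.val_det_apply, Matrix.det_fin_two, hc, mul_zero, sub_zero] at this
    exact this
  have h11 : g 1 1 ≠ 0 := fun h => by rw [h, mul_zero] at hdet; exact lt_irrefl _ hdet
  rw [im_smul_eq_div_normSq, abs_of_pos hg, Matrix.GeneralLinearGroup.val_det_apply,
    Matrix.det_fin_two, hc, mul_zero, sub_zero]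
  simp only [denom, hc, Complex.ofReal_zero, zero_mul, zero_add, Complex.normSq_ofReal]
  field_simp

/-- Slash by an upper triangular matrix of positive determinant preserves exponential decay. -/
theorem ExpDecay.slash_upper {f : ℍ → ℂ} (hf : ExpDecay f) (k : ℤ) (g : GL (Fin 2) ℝ)
    (hg : 0 < g.det.val) (hc : g 1 0 = 0) : ExpDecay (f ∣[k] g) := by
  obtain ⟨a, ha, hfa⟩ := hf
  have hdet : g 0 0 * g 1 1 > 0 := by
    have := hg
    rw [Matrix.GeneralLinearGroup.val_det_apply, Matrix.det_fin_two, hc, mul_zero, sub_zero] at this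
    exact this
  have h11 : g 1 1 ≠ 0 := fun h => by rw [h, mul_zero] at hdet; exact lt_irrefl _ hdet
  have hr : 0 < g 0 0 / g 1 1 := by
    have : g 0 0 / g 1 1 = (g 0 0 * g 1 1) / (g 1 1) ^ 2 := by field_simp
    rw [this]
    exact div_pos hdet (by positivity)
  refine ⟨a * (g 0 0 / g 1 1), mul_pos ha hr, ?_⟩
  -- `τ ↦ g • τ` tends to `i∞`
  have htend : Tendsto (fun τ : ℍ => g • τ) atImInfty atImInfty := by
    rw [atImInfty, tendsto_comap_iff]
    have : (UpperHalfPlane.im ∘ fun τ : ℍ => g • τ) = fun τ : ℍ => g 0 0 / g 1 1 * τ.im := by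
      funext τ
      exact im_upper_smul g hg hc τ
    rw [this]
    exact (tendsto_comap (f := UpperHalfPlane.im) (x := atTop)).const_mul_atTop hr
  have h1 := hfa.comp_tendsto htend
  have h2 : (fun τ : ℍ => (f ∣[k] g) τ) = fun τ : ℍ =>
      ((g.det.val : ℂ) ^ (k - 1) * (g 1 1 : ℂ) ^ (-k)) * (f ∘ fun τ : ℍ => g • τ) τ := by
    funext τ
    rw [ModularForm.slash_apply, σ, if_pos hg, abs_of_pos hg]
    simp only [denom, hc, Complex.ofReal_zero, zero_mul, zero_add, Function.comp]
    change f (g • τ) * _ * _ = _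
    ring
  have h3 : ((fun τ : ℍ => Real.exp (-a * τ.im)) ∘ fun τ : ℍ => g • τ) =
      fun τ : ℍ => Real.exp (-(a * (g 0 0 / g 1 1)) * τ.im) := by
    funext τ
    simp only [Function.comp, im_upper_smul g hg hc τ]
    ring_nf
  rw [h3] at h1
  change (fun τ : ℍ => (f ∣[k] g) τ) =O[atImInfty] _
  rw [h2]
  exact h1.const_mul_left _

theorem expDecay_slash_heckeMatrix {f : ℍ → ℂ} (hf : ExpDecay f) (k : ℤ) {p : ℕ} (hp : p ≠ 0)
    (j : ℕ) : ExpDecay (f ∣[k] heckeMatrix p j) := by
  refine hf.slash_upper k _ (det_heckeMatrix_pos p j) ?_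
  simp [heckeMatrix, hp, upperTriangularGL]

theorem expDecay_slash_heckeDiagMatrix {f : ℍ → ℂ} (hf : ExpDecay f) (k : ℤ) {p : ℕ}
    (hp : p ≠ 0) : ExpDecay (f ∣[k] heckeDiagMatrix p) := by
  refine hf.slash_upper k _ (det_heckeDiagMatrix_pos p) ?_
  simp [heckeDiagMatrix, hp, upperTriangularGL]

end Fermat.Agent.S22
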