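-- S22 helper: the Eichler primitive of `T_p f` and `U_p f` in terms of the Eichler primitive of `f`
-- evaluated at the Hecke translates.
import Fermat.Agent.S22.EichlerPrim
import Fermat.Agent.S22.Decay

set_option autoImplicit false

namespace Fermat.Agent.S22

open UpperHalfPlane hiding I
open Complex Filter Topology Asymptotics
open scoped Manifold ModularForm MatrixGroups
open ModularForm

variable {f : ℍ → ℂ}

theorem eichF_slash_heckeMatrix (hf : MDiff f) (hfd : ExpDecay f) (n : ℕ) {p : ℕ} (hp : p ≠ 0)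
    (j : ℕ) (z : ℍ) (x y : ℂ) :
    eichF n (f ∣[(n : ℤ) + 2] heckeMatrix p j) z x y =
      eichF n f (heckeMatrix p j • z) (x + (j : ℂ) * y) ((p : ℂ) * y) := by
  obtain ⟨a, ha, hfa⟩ := hfd
  obtain ⟨b, hb, hfb⟩ := expDecay_slash_heckeMatrix ⟨a, ha, hfa⟩ ((n : ℤ) + 2) hp j
  have hc : (heckeMatrix p j : GL (Fin 2) ℝ) 1 0 = 0 := by
    simp [heckeMatrix, hp, upperTriangularGL]
  have := eichF_smul_of_upper ha hb hf hfa n (heckeMatrix p j) (det_heckeMatrix_pos p j) hc hfb x y z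
  rw [← this]
  congr 1 <;> simp [heckeMatrix, hp, upperTriangularGL]

theorem eichF_slash_heckeDiagMatrix (hf : MDiff f) (hfd : ExpDecay f) (n : ℕ) {p : ℕ}
    (hp : p ≠ 0) (z : ℍ) (x y : ℂ) :
    eichF n (f ∣[(n : ℤ) + 2] heckeDiagMatrix p) z x y =
      eichF n f (heckeDiagMatrix p • z) ((p : ℂ) * x) y := by
  obtain ⟨a, ha, hfa⟩ := hfd
  obtain ⟨b, hb, hfb⟩ := expDecay_slash_heckeDiagMatrix ⟨a, ha, hfa⟩ ((n : ℤ) + 2) hp
  have hc : (heckeDiagMatrix p : GL (Fin 2) ℝ) 1 0 = 0 := by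
    simp [heckeDiagMatrix, hp, upperTriangularGL]
  have := eichF_smul_of_upper ha hb hf hfa n (heckeDiagMatrix p) (det_heckeDiagMatrix_pos p) hc hfb
    x y z
  rw [← this]
  congr 1 <;> simp [heckeDiagMatrix, hp, upperTriangularGL]

/-- The Eichler primitive of `U_p f`. -/
theorem eichF_heckeU (hf : MDiff f) (hfd : ExpDecay f) (n : ℕ) {p : ℕ} (hp : p ≠ 0)
    (z : ℍ) (x y : ℂ) :
    eichF n (heckeU ((n : ℤ) + 2) p f) z x y =
      ∑ j ∈ Finset.range p, eichF n f (heckeMatrix p j • z) (x + (j : ℂ) * y) ((p : ℂ) * y) := by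
  rw [heckeU_def, eichF_sum]
  · exact Finset.sum_congr rfl fun j _ => eichF_slash_heckeMatrix hf hfd n hp j z x y
  · exact fun j _ => hf.slash _ _
  · exact fun j _ => expDecay_slash_heckeMatrix hfd _ hp j

/-- The Eichler primitive of `T_p f`. -/
theorem eichF_heckeT (hf : MDiff f) (hfd : ExpDecay f) (n : ℕ) {p : ℕ} (hp : p ≠ 0)
    (z : ℍ) (x y : ℂ) :
    eichF n (heckeT ((n : ℤ) + 2) p f) z x y =
      (∑ j ∈ Finset.range p, eichF n f (heckeMatrix p j • z) (x + (j : ℂ) * y) ((p : ℂ) * y))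
        + eichF n f (heckeDiagMatrix p • z) ((p : ℂ) * x) y := by
  rw [heckeT_eq_heckeU_add]
  have hU : MDiff (heckeU ((n : ℤ) + 2) p f) := by
    rw [heckeU_def]
    exact MDifferentiable.sum fun j _ => hf.slash _ _
  have hUd : ExpDecay (heckeU ((n : ℤ) + 2) p f) := by
    rw [heckeU_def]
    exact ExpDecay.sum _ fun j _ => expDecay_slash_heckeMatrix hfd _ hp j
  obtain ⟨a, ha, hUa⟩ := hUd
  obtain ⟨b, hb, hDb⟩ := expDecay_slash_heckeDiagMatrix hfd ((n : ℤ) + 2) hp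
  rw [eichF_add ha hb hU (hf.slash _ _) hUa hDb, eichF_heckeU hf hfd n hp,
    eichF_slash_heckeDiagMatrix hf hfd n hp]

end Fermat.Agent.S22
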