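-- S22 helper (P4, T_l case): the period lattice is stable under the transpose of `T_p`, `p ∤ N`.
import Fermat.Agent.S22.Cocycle
import Fermat.Agent.S22.HeckeEich
import Fermat.Prelude.Def_CuspForm_HeckeAlgebra

set_option autoImplicit false

namespace Fermat.Agent.S22

open UpperHalfPlane hiding I
open Complex Filter Topology Matrix.SpecialLinearGroup
open scoped Manifold ModularForm MatrixGroups OnePoint
open ModularForm
open P2MW.S_ModularForm_heckeT_slash_eq_self_of_mem_Gamma0.ModularForm.HeckeSlashInvariance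

/-- First coordinate of the linear action of a real matrix on `ℂ²`. -/
noncomputable def actX (γ : GL (Fin 2) ℝ) (x y : ℂ) : ℂ := (γ 0 0 : ℂ) * x + (γ 0 1 : ℂ) * y

/-- Second coordinate of the linear action of a real matrix on `ℂ²`. -/
noncomputable def actY (γ : GL (Fin 2) ℝ) (x y : ℂ) : ℂ := (γ 1 0 : ℂ) * x + (γ 1 1 : ℂ) * y

theorem actX_mul (γ δ : GL (Fin 2) ℝ) (x y : ℂ) :
    actX (γ * δ) x y = actX γ (actX δ x y) (actY δ x y) := by
  simp only [actX, actY, Matrix.GeneralLinearGroup.coe_mul, Matrix.mul_apply, Fin.sum_univ_two]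
  push_cast
  ring

theorem actY_mul (γ δ : GL (Fin 2) ℝ) (x y : ℂ) :
    actY (γ * δ) x y = actY γ (actX δ x y) (actY δ x y) := by
  simp only [actX, actY, Matrix.GeneralLinearGroup.coe_mul, Matrix.mul_apply, Fin.sum_univ_two]
  push_cast
  ring

/-- The Eichler primitive evaluated at the `γ`-translate of `(z; x, y)`. -/
noncomputable def eichAt (n : ℕ) (f : ℍ → ℂ) (γ : GL (Fin 2) ℝ) (z : ℍ) (x y : ℂ) : ℂ :=
  eichF n f (γ • z) (actX γ x y) (actY γ x y)

theorem eichAt_mul (n : ℕ) (f : ℍ → ℂ) (γ δ : GL (Fin 2) ℝ) (z : ℍ) (x y : ℂ) :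
    eichAt n f (γ * δ) z x y = eichAt n f γ (δ • z) (actX δ x y) (actY δ x y) := by
  unfold eichAt
  rw [mul_smul, actX_mul, actY_mul]

theorem eichCocycle_eq_eichAt (n : ℕ) (f : ℍ → ℂ) (γ : GL (Fin 2) ℝ) (x y : ℂ) :
    eichCocycle n f γ x y = eichAt n f γ UpperHalfPlane.I x y - eichF n f UpperHalfPlane.I x y := rfl

section reps

variable {p : ℕ}

theorem heckeRep_apply_one_zero (hp : p ≠ 0) (r : OnePoint (ZMod p)) :
    (heckeRep p r : GL (Fin 2) ℝ) 1 0 = 0 := by
  induction r using OnePoint.rec with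
  | infty => simp [heckeRep, heckeDiagMatrix, hp, upperTriangularGL]
  | coe j => simp [heckeRep, heckeMatrix, hp, upperTriangularGL]

theorem det_heckeRep_pos (r : OnePoint (ZMod p)) : 0 < (heckeRep p r).det.val := by
  induction r using OnePoint.rec with
  | infty => exact det_heckeDiagMatrix_pos p
  | coe j => exact det_heckeMatrix_pos p _

/-- The integral action of the Hecke representatives on `ℤ²`. -/
def heckeRepVec (p : ℕ) (r : OnePoint (ZMod p)) (v : Fin 2 → ℤ) : Fin 2 → ℤ :=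
  r.elim ![(p : ℤ) * v 0, v 1] (fun j => ![v 0 + (j.val : ℤ) * v 1, (p : ℤ) * v 1])

theorem heckeRepVec_zero (hp : p ≠ 0) (r : OnePoint (ZMod p)) (v : Fin 2 → ℤ) :
    ((heckeRepVec p r v 0 : ℤ) : ℂ) = actX (heckeRep p r) (v 0) (v 1) := by
  induction r using OnePoint.rec with
  | infty => simp [heckeRepVec, actX, heckeRep, heckeDiagMatrix, hp, upperTriangularGL]
  | coe j => simp [heckeRepVec, actX, heckeRep, heckeMatrix, hp, upperTriangularGL]

theorem heckeRepVec_one (hp : p ≠ 0) (r : OnePoint (ZMod p)) (v : Fin 2 → ℤ) :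
    ((heckeRepVec p r v 1 : ℤ) : ℂ) = actY (heckeRep p r) (v 0) (v 1) := by
  induction r using OnePoint.rec with
  | infty => simp [heckeRepVec, actY, heckeRep, heckeDiagMatrix, hp, upperTriangularGL]
  | coe j => simp [heckeRepVec, actY, heckeRep, heckeMatrix, hp, upperTriangularGL]

variable {f : ℍ → ℂ}

/-- The Eichler primitive of `f ∣ α` for a Hecke representative `α`. -/
theorem eichF_slash_heckeRep (hf : MDiff f) (hfd : ExpDecay f) (n : ℕ) (hp : p ≠ 0)
    (r : OnePoint (ZMod p)) (z : ℍ) (x y : ℂ) :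
    eichF n (f ∣[(n : ℤ) + 2] heckeRep p r) z x y = eichAt n f (heckeRep p r) z x y := by
  obtain ⟨a, ha, hfa⟩ := hfd
  obtain ⟨b, hb, hfb⟩ := ExpDecay.slash_upper ⟨a, ha, hfa⟩ ((n : ℤ) + 2) (heckeRep p r)
    (det_heckeRep_pos r) (heckeRep_apply_one_zero hp r)
  exact (eichF_smul_of_upper ha hb hf hfa n (heckeRep p r) (det_heckeRep_pos r)
    (heckeRep_apply_one_zero hp r) hfb x y z).symm

/-- The Eichler primitive of `T_p f` as a sum over the Hecke representatives. -/
theorem eichF_heckeT_onePoint [NeZero p] (hf : MDiff f) (hfd : ExpDecay f) (n : ℕ)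
    (z : ℍ) (x y : ℂ) :
    eichF n (heckeT ((n : ℤ) + 2) p f) z x y =
      ∑ r : OnePoint (ZMod p), eichAt n f (heckeRep p r) z x y := by
  have hp : p ≠ 0 := NeZero.ne p
  rw [heckeT_eq_sum_onePoint, eichF_sum]
  · exact Finset.sum_congr rfl fun r _ => eichF_slash_heckeRep hf hfd n hp r z x y
  · exact fun r _ => hf.slash _ _
  · exact fun r _ => ExpDecay.slash_upper hfd _ _ (det_heckeRep_pos r) (heckeRep_apply_one_zero hp r)

end reps

section stable

variable (N : ℕ) [NeZero N] (n : ℕ)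

attribute [local instance] sl2zAction

omit [NeZero N] in
theorem mem_Gamma0_of_dvd {g : SL(2, ℤ)} (h : (N : ℤ) ∣ g 1 0) : g ∈ CongruenceSubgroup.Gamma0 N :=
  CongruenceSubgroup.Gamma0_mem.mpr ((ZMod.intCast_zmod_eq_zero_iff_dvd _ _).mpr h)

omit [NeZero N] in
theorem dvd_of_mem_Gamma0 {g : SL(2, ℤ)} (h : g ∈ CongruenceSubgroup.Gamma0 N) : (N : ℤ) ∣ g 1 0 :=
  (ZMod.intCast_zmod_eq_zero_iff_dvd _ _).mp (CongruenceSubgroup.Gamma0_mem.mp h)

/-- Key identity: the period functional composed with `T_p` is a sum of period functionals. -/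
theorem periodFunctional_comp_heckeT {p : ℕ} [hpf : Fact p.Prime] (hpN : ¬ p ∣ N) {g : SL(2, ℤ)}
    (hg : g ∈ CongruenceSubgroup.Gamma0 N) (v : Fin 2 → ℤ) :
    ∃ g' : OnePoint (ZMod p) → SL(2, ℤ), (∀ r, g' r ∈ CongruenceSubgroup.Gamma0 N) ∧
      ∃ σ : Equiv.Perm (OnePoint (ZMod p)),
      periodFunctional N n g v ∘ₗ (CuspForm.heckeTLin ((n : ℤ) + 2) hpf.out hpN) =
        ∑ r : OnePoint (ZMod p), periodFunctional N n (g' r) (heckeRepVec p (σ r) v) := by
  have hp : p.Prime := hpf.out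
  have hp0 : p ≠ 0 := hp.ne_zero
  choose g' hg'N hmul using fun r => heckeRep_mul hpN g (dvd_of_mem_Gamma0 N hg) r
  let σ : Equiv.Perm (OnePoint (ZMod p)) := MulAction.toPerm (redMatrix p g)
  refine ⟨g', fun r => mem_Gamma0_of_dvd N (hg'N r), σ, ?_⟩
  ext f
  have hfm : MDiff (f : ℍ → ℂ) := cuspForm_mdiff f
  have hfd : ExpDecay (f : ℍ → ℂ) := cuspForm_exp_decay f
  rw [LinearMap.comp_apply, periodFunctional_apply, LinearMap.sum_apply]
  simp only [periodFunctional_apply]
  rw [CuspForm.coe_heckeTLin_apply, eichCocycle_eq_eichAt]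
  unfold eichAt
  rw [eichF_heckeT_onePoint hfm hfd, eichF_heckeT_onePoint hfm hfd]
  -- rewrite each term of the first sum using the coset relation
  have key : ∀ r : OnePoint (ZMod p),
      eichAt n f (heckeRep p r) ((mapGL ℝ g : GL (Fin 2) ℝ) • UpperHalfPlane.I)
          (actX (mapGL ℝ g) (v 0) (v 1)) (actY (mapGL ℝ g) (v 0) (v 1)) =
        eichAt n f (heckeRep p (σ r)) UpperHalfPlane.I (v 0) (v 1) +
          eichCocycle n f (mapGL ℝ (g' r)) (heckeRepVec p (σ r) v 0) (heckeRepVec p (σ r) v 1) := by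
    intro r
    rw [← eichAt_mul, hmul r, eichAt_mul]
    unfold eichAt
    have hγ : (mapGL ℝ (g' r) : GL (Fin 2) ℝ) ∈
        (CongruenceSubgroup.Gamma0 N : Subgroup (GL (Fin 2) ℝ)) :=
      Subgroup.mem_map_of_mem (mapGL ℝ) (mem_Gamma0_of_dvd N (hg'N r))
    have := eichF_smul_eq f hγ (by simp) (heckeRep p (redMatrix p g • r) • UpperHalfPlane.I)
      (actX (heckeRep p (redMatrix p g • r)) (v 0) (v 1))
      (actY (heckeRep p (redMatrix p g • r)) (v 0) (v 1))
    rw [heckeRepVec_zero hp0, heckeRepVec_one hp0]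
    exact this
  rw [Finset.sum_congr rfl fun r _ => key r, Finset.sum_add_distrib,
    Equiv.sum_comp σ (fun r => eichAt n f (heckeRep p r) UpperHalfPlane.I (v 0) (v 1))]
  unfold eichAt
  ring

/-- The period lattice is stable under the transpose of `T_p`, `p ∤ N`. -/
theorem periodLattice_heckeT_stable {p : ℕ} (hp : p.Prime) (hpN : ¬ p ∣ N) :
    ∀ φ ∈ periodLattice N n,
      φ ∘ₗ (CuspForm.heckeTLin ((n : ℤ) + 2) hp hpN) ∈ periodLattice N n := by
  intro φ hφ
  unfold periodLattice at hφ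
  induction hφ using Submodule.span_induction with
  | mem φ hφ =>
    obtain ⟨g, hg, v, rfl⟩ := hφ
    haveI : Fact p.Prime := ⟨hp⟩
    obtain ⟨g', hg', σ, h⟩ := periodFunctional_comp_heckeT N n (p := p) hpN hg v
    rw [h]
    exact Submodule.sum_mem _ fun r _ => periodFunctional_mem_periodLattice N n (hg' r) _
  | zero =>
    rw [LinearMap.zero_comp]
    exact Submodule.zero_mem _
  | add φ ψ _ _ h1 h2 =>
    rw [LinearMap.add_comp]
    exact Submodule.add_mem _ h1 h2
  | smul m φ _ h =>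
    have : (m • φ) ∘ₗ (CuspForm.heckeTLin ((n : ℤ) + 2) hp hpN) =
        m • (φ ∘ₗ (CuspForm.heckeTLin ((n : ℤ) + 2) hp hpN)) := by
      ext f
      simp
    rw [this]
    exact Submodule.smul_mem _ _ h

end stable

end Fermat.Agent.S22
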