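-- S22 helper (P4, U_q case): the period lattice is stable under the transpose of `U_p`, `p ∣ N`.
import Fermat.Agent.S22.HeckeStable

set_option autoImplicit false

namespace Fermat.Agent.S22

open UpperHalfPlane hiding I
open Complex Filter Topology Matrix.SpecialLinearGroup
open scoped Manifold ModularForm MatrixGroups
open ModularForm
open P2MW.S_ModularForm_heckeT_slash_eq_self_of_mem_Gamma0.ModularForm.HeckeSlashInvariance

section reps

variable {p : ℕ}

theorem heckeMatrix_apply_one_zero (hp : p ≠ 0) (j : ℕ) :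
    (heckeMatrix p j : GL (Fin 2) ℝ) 1 0 = 0 := by
  simp [heckeMatrix, hp, upperTriangularGL]

/-- The integral action of the upper Hecke representatives on `ℤ²`. -/
def heckeMatVec (p : ℕ) (j : ℕ) (v : Fin 2 → ℤ) : Fin 2 → ℤ :=
  ![v 0 + (j : ℤ) * v 1, (p : ℤ) * v 1]

theorem heckeMatVec_zero (hp : p ≠ 0) (j : ℕ) (v : Fin 2 → ℤ) :
    ((heckeMatVec p j v 0 : ℤ) : ℂ) = actX (heckeMatrix p j) (v 0) (v 1) := by
  simp [heckeMatVec, actX, heckeMatrix, hp, upperTriangularGL]

theorem heckeMatVec_one (hp : p ≠ 0) (j : ℕ) (v : Fin 2 → ℤ) :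
    ((heckeMatVec p j v 1 : ℤ) : ℂ) = actY (heckeMatrix p j) (v 0) (v 1) := by
  simp [heckeMatVec, actY, heckeMatrix, hp, upperTriangularGL]

variable {f : ℍ → ℂ}

theorem eichF_slash_heckeMatrix' (hf : MDiff f) (hfd : ExpDecay f) (n : ℕ) (hp : p ≠ 0)
    (j : ℕ) (z : ℍ) (x y : ℂ) :
    eichF n (f ∣[(n : ℤ) + 2] heckeMatrix p j) z x y = eichAt n f (heckeMatrix p j) z x y := by
  obtain ⟨a, ha, hfa⟩ := hfd
  obtain ⟨b, hb, hfb⟩ := expDecay_slash_heckeMatrix ⟨a, ha, hfa⟩ ((n : ℤ) + 2) hp j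
  exact (eichF_smul_of_upper ha hb hf hfa n (heckeMatrix p j) (det_heckeMatrix_pos p j)
    (heckeMatrix_apply_one_zero hp j) hfb x y z).symm

/-- The Eichler primitive of `U_p f` as a sum over `ZMod p`. -/
theorem eichF_heckeU_zmod [NeZero p] (hf : MDiff f) (hfd : ExpDecay f) (n : ℕ)
    (z : ℍ) (x y : ℂ) :
    eichF n (heckeU ((n : ℤ) + 2) p f) z x y =
      ∑ r : ZMod p, eichAt n f (heckeMatrix p r.val) z x y := by
  have hp : p ≠ 0 := NeZero.ne p
  rw [heckeU_eq_sum_zmod, eichF_sum]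
  · exact Finset.sum_congr rfl fun r _ => eichF_slash_heckeMatrix' hf hfd n hp r.val z x y
  · exact fun r _ => hf.slash _ _
  · exact fun r _ => expDecay_slash_heckeMatrix hfd _ hp r.val

end reps

section stable

variable (N : ℕ) [NeZero N] (n : ℕ)

attribute [local instance] sl2zAction

/-- Key identity: the period functional composed with `U_p` is a sum of period functionals. -/
theorem periodFunctional_comp_heckeU {p : ℕ} [NeZero p] (hpN : p ∣ N) {g : SL(2, ℤ)}
    (hg : g ∈ CongruenceSubgroup.Gamma0 N) (v : Fin 2 → ℤ) :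
    ∃ g' : ZMod p → SL(2, ℤ), (∀ r, g' r ∈ CongruenceSubgroup.Gamma0 N) ∧
      ∃ σ : Equiv.Perm (ZMod p),
      periodFunctional N n g v ∘ₗ (CuspForm.heckeULin ((n : ℤ) + 2) hpN) =
        ∑ r : ZMod p, periodFunctional N n (g' r) (heckeMatVec p (σ r).val v) := by
  have hp0 : p ≠ 0 := NeZero.ne p
  have hcN : (N : ℤ) ∣ g 1 0 := dvd_of_mem_Gamma0 N hg
  have hc : (p : ℤ) ∣ g 1 0 := (Int.natCast_dvd_natCast.mpr hpN).trans hcN
  choose g' hg'c hmul using fun r => heckeMatrix_mul_of_dvd g hc r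
  let σ : Equiv.Perm (ZMod p) := affinePerm g ((ZMod.intCast_zmod_eq_zero_iff_dvd _ _).mpr hc)
  have hg'N : ∀ r, g' r ∈ CongruenceSubgroup.Gamma0 N := fun r =>
    mem_Gamma0_of_dvd N (by rw [hg'c r]; exact Dvd.dvd.mul_left hcN _)
  refine ⟨g', hg'N, σ, ?_⟩
  ext f
  have hfm : MDiff (f : ℍ → ℂ) := cuspForm_mdiff f
  have hfd : ExpDecay (f : ℍ → ℂ) := cuspForm_exp_decay f
  rw [LinearMap.comp_apply, periodFunctional_apply, LinearMap.sum_apply]
  simp only [periodFunctional_apply]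
  rw [CuspForm.coe_heckeULin_apply, eichCocycle_eq_eichAt]
  unfold eichAt
  rw [eichF_heckeU_zmod hfm hfd, eichF_heckeU_zmod hfm hfd]
  have key : ∀ r : ZMod p,
      eichAt n f (heckeMatrix p r.val) ((mapGL ℝ g : GL (Fin 2) ℝ) • UpperHalfPlane.I)
          (actX (mapGL ℝ g) (v 0) (v 1)) (actY (mapGL ℝ g) (v 0) (v 1)) =
        eichAt n f (heckeMatrix p (σ r).val) UpperHalfPlane.I (v 0) (v 1) +
          eichCocycle n f (mapGL ℝ (g' r)) (heckeMatVec p (σ r).val v 0)
            (heckeMatVec p (σ r).val v 1) := by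
    intro r
    rw [← eichAt_mul, hmul r, eichAt_mul]
    unfold eichAt
    have hγ : (mapGL ℝ (g' r) : GL (Fin 2) ℝ) ∈
        (CongruenceSubgroup.Gamma0 N : Subgroup (GL (Fin 2) ℝ)) :=
      Subgroup.mem_map_of_mem (mapGL ℝ) (hg'N r)
    have := eichF_smul_eq f hγ (by simp) (heckeMatrix p (σ r).val • UpperHalfPlane.I)
      (actX (heckeMatrix p (σ r).val) (v 0) (v 1))
      (actY (heckeMatrix p (σ r).val) (v 0) (v 1))
    rw [heckeMatVec_zero hp0, heckeMatVec_one hp0]
    exact this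
  rw [Finset.sum_congr rfl fun r _ => key r, Finset.sum_add_distrib,
    Equiv.sum_comp σ (fun r => eichAt n f (heckeMatrix p r.val) UpperHalfPlane.I (v 0) (v 1))]
  unfold eichAt
  ring

/-- The period lattice is stable under the transpose of `U_p`, `p ∣ N`. -/
theorem periodLattice_heckeU_stable {p : ℕ} (hpN : p ∣ N) :
    ∀ φ ∈ periodLattice N n,
      φ ∘ₗ (CuspForm.heckeULin ((n : ℤ) + 2) hpN) ∈ periodLattice N n := by
  have hp0 : p ≠ 0 := fun h => NeZero.ne N (by rw [h] at hpN; exact zero_dvd_iff.mp hpN)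
  haveI : NeZero p := ⟨hp0⟩
  intro φ hφ
  unfold periodLattice at hφ
  induction hφ using Submodule.span_induction with
  | mem φ hφ =>
    obtain ⟨g, hg, v, rfl⟩ := hφ
    obtain ⟨g', hg', σ, h⟩ := periodFunctional_comp_heckeU N n (p := p) hpN hg v
    rw [h]
    exact Submodule.sum_mem _ fun r _ => periodFunctional_mem_periodLattice N n (hg' r) _
  | zero =>
    rw [LinearMap.zero_comp]
    exact Submodule.zero_mem _
  | add φ ψ _ _ h1 h2 =>
    rw [LinearMap.add_comp]
    exact Submodule.add_mem _ h1 h2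
  | smul m φ _ h =>
    have : (m • φ) ∘ₗ (CuspForm.heckeULin ((n : ℤ) + 2) hpN) =
        m • (φ ∘ₗ (CuspForm.heckeULin ((n : ℤ) + 2) hpN)) := by
      ext f
      simp
    rw [this]
    exact Submodule.smul_mem _ _ h

/-- **(P4)** The period lattice is stable under the transposes of all Hecke generators. -/
theorem periodLattice_stable (S : Set ℕ) :
    ∀ T ∈ CuspForm.heckeGenerators N ((n : ℤ) + 2) S, ∀ φ ∈ periodLattice N n,
      φ ∘ₗ T ∈ periodLattice N n := by
  rintro T (⟨ℓ, hℓ, hℓN, -, rfl⟩ | ⟨q, hqN, -, -, rfl⟩) φ hφ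
  · exact periodLattice_heckeT_stable N n hℓ hℓN φ hφ
  · exact periodLattice_heckeU_stable N n hqN φ hφ

end stable

end Fermat.Agent.S22
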