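-- S22 helper: a ℤ-subalgebra of `End_ℂ(V)` generated by operators whose transposes preserve a
-- finitely generated ℤ-submodule `Λ` of the dual space with trivial joint kernel is a finitely
-- generated ℤ-module.
import Mathlib

set_option autoImplicit false

namespace Fermat.Agent.S22

open Module

variable {V : Type*} [AddCommGroup V] [Module ℂ V]

/-- Elements of the adjoin of `G` preserve (by precomposition) every `ℤ`-submodule of the dual
which is preserved by the elements of `G`. -/
theorem comp_mem_of_mem_adjoin (G : Set (Module.End ℂ V)) (Λ : Submodule ℤ (Module.Dual ℂ V))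
    (hstable : ∀ T ∈ G, ∀ φ ∈ Λ, φ ∘ₗ T ∈ Λ) {T : Module.End ℂ V}
    (hT : T ∈ Algebra.adjoin ℤ G) {φ : Module.Dual ℂ V} (hφ : φ ∈ Λ) : φ ∘ₗ T ∈ Λ := by
  induction hT using Algebra.adjoin_induction generalizing φ with
  | mem T hT => exact hstable T hT φ hφ
  | algebraMap n =>
    have : φ ∘ₗ (algebraMap ℤ (Module.End ℂ V) n) = n • φ := by
      ext v
      simp
    rw [this]
    exact Λ.smul_mem n hφ
  | add T T' _ _ hT hT' =>
    rw [LinearMap.comp_add]
    exact Λ.add_mem (hT hφ) (hT' hφ)
  | mul T T' _ _ hT hT' =>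
    have : φ ∘ₗ (T * T') = (φ ∘ₗ T) ∘ₗ T' := rfl
    rw [this]
    exact hT' (hT hφ)

/-- Main algebraic lemma: lattice criterion for finiteness over `ℤ`. -/
theorem finite_adjoin_of_lattice (G : Set (Module.End ℂ V)) (Λ : Submodule ℤ (Module.Dual ℂ V))
    (hfg : Λ.FG) (hstable : ∀ T ∈ G, ∀ φ ∈ Λ, φ ∘ₗ T ∈ Λ)
    (hker : ∀ v : V, (∀ φ ∈ Λ, φ v = 0) → v = 0) :
    Module.Finite ℤ (Algebra.adjoin ℤ G) := by
  have : Module.Finite ℤ Λ := Module.Finite.iff_fg.mpr hfg
  -- choose generators of `Λ`
  obtain ⟨s, hs⟩ := hfg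
  -- the evaluation map `T ↦ (φ ↦ φ ∘ T)` on generators
  let Ψ : (Algebra.adjoin ℤ G) →ₗ[ℤ] (s → Λ) :=
    { toFun := fun T i => ⟨(i : Module.Dual ℂ V) ∘ₗ (T : Module.End ℂ V),
        comp_mem_of_mem_adjoin G Λ hstable T.2 (hs ▸ Submodule.subset_span i.2)⟩
      map_add' := fun T T' => by
        funext i
        apply Subtype.ext
        simp [LinearMap.comp_add]
      map_smul' := fun n T => by
        funext i
        apply Subtype.ext
        apply LinearMap.ext
        intro v
        simp }
  have hΨ : Function.Injective Ψ := by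
    rw [← LinearMap.ker_eq_bot, LinearMap.ker_eq_bot']
    intro T hT
    apply Subtype.ext
    apply LinearMap.ext
    intro v
    apply hker
    -- every `φ ∈ Λ` kills `T v`
    have hgen : ∀ φ ∈ (s : Set (Module.Dual ℂ V)), φ ((T : Module.End ℂ V) v) = 0 := by
      intro φ hφ
      have := congrArg (fun F => ((F ⟨φ, hφ⟩ : Λ) : Module.Dual ℂ V) v) hT
      simpa [Ψ] using this
    intro φ hφ
    rw [← hs] at hφ
    induction hφ using Submodule.span_induction with
    | mem φ hφ => exact hgen φ hφ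
    | zero => simp
    | add φ ψ _ _ h1 h2 => simp [h1, h2]
    | smul n φ _ h => simp [h]
  exact Module.Finite.of_injective Ψ hΨ

end Fermat.Agent.S22
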