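import Mathlib
import Fermat.Prelude.Def_CuspForm_HeckeAlgebra
import Fermat.Agent.S07

set_option autoImplicit false

namespace Fermat.Agent.S22

open scoped MatrixGroups ModularForm
open UpperHalfPlane Matrix.SpecialLinearGroup

/-- `-1 ∈ Γ₀(N)` (as a subgroup of `GL(2, ℝ)`). -/
theorem neg_one_mem_Gamma0 (N : ℕ) :
    (-1 : GL (Fin 2) ℝ) ∈ (CongruenceSubgroup.Gamma0 N : Subgroup (GL (Fin 2) ℝ)) := by
  refine ⟨-1, ?_, ?_⟩
  · rw [SetLike.mem_coe, CongruenceSubgroup.Gamma0_mem]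
    simp
  · ext i j
    fin_cases i <;> fin_cases j <;> simp

/-- Cusp forms of odd weight for `Γ₀(N)` vanish. -/
theorem cuspForm_eq_zero_of_odd (N : ℕ) {k : ℤ} (hk : Odd k)
    (f : CuspForm (CongruenceSubgroup.Gamma0 N) k) : f = 0 := by
  ext z
  have hf := SlashInvariantForm.slash_action_eqn'' f (neg_one_mem_Gamma0 N) z
  rw [neg_smul, one_smul, denom_neg, denom_one, hk.neg_one_zpow] at hf
  have h2 : (2 : ℂ) * f z = 0 := by linear_combination hf
  exact (mul_eq_zero.mp h2).resolve_left (by norm_num)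

/-- Cusp forms of weight `≤ 0` for `Γ₀(N)`, `N ≠ 0`, vanish. -/
theorem cuspForm_eq_zero_of_nonpos (N : ℕ) [NeZero N] {k : ℤ} (hk : k ≤ 0)
    (f : CuspForm (CongruenceSubgroup.Gamma0 N) k) : f = 0 := by
  refine Fermat.Agent.S07.eq_zero_of_weight_mul_index_lt f ?_
  have : k * (Nat.card (𝒮ℒ ⧸ (CongruenceSubgroup.Gamma0 N : Subgroup (GL (Fin 2) ℝ)).subgroupOf 𝒮ℒ) : ℤ)
      ≤ 0 := mul_nonpos_of_nonpos_of_nonneg hk (by positivity)
  omega

/-- If the space of cusp forms is trivial, the Hecke algebra is a finite `ℤ`-module. -/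
theorem heckeAlgebra_finite_of_subsingleton (N : ℕ) [NeZero N] (k : ℤ) (S : Set ℕ)
    (h : ∀ f : CuspForm (CongruenceSubgroup.Gamma0 N) k, f = 0) :
    Module.Finite ℤ (CuspForm.heckeAlgebra N k S) := by
  have : Subsingleton (CuspForm (CongruenceSubgroup.Gamma0 N) k) :=
    ⟨fun f g => by rw [h f, h g]⟩
  have : Subsingleton (Module.End ℂ (CuspForm (CongruenceSubgroup.Gamma0 N) k)) :=
    ⟨fun a b => LinearMap.ext fun x => Subsingleton.elim _ _⟩
  have : Subsingleton (CuspForm.heckeAlgebra N k S) :=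
    ⟨fun a b => Subtype.ext (Subsingleton.elim _ _)⟩
  exact Module.Finite.of_finite

/-- **S22, trivial weights**: `k ≤ 0` or `k` odd. -/
theorem heckeAlgebra_finite_of_trivial_weight (N : ℕ) [NeZero N] (k : ℤ) (S : Set ℕ)
    (hk : k ≤ 0 ∨ Odd k) : Module.Finite ℤ (CuspForm.heckeAlgebra N k S) := by
  refine heckeAlgebra_finite_of_subsingleton N k S fun f => ?_
  rcases hk with hk | hk
  · exact cuspForm_eq_zero_of_nonpos N hk f
  · exact cuspForm_eq_zero_of_odd N hk f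

end Fermat.Agent.S22
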