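import Mathlib

set_option autoImplicit false

namespace Fermat.Agent.S22

open Finset

/-- The "Eichler integral" combination `∑_j C(m,j) z^(m-j) (-1)^j I_j(z)`, which for
`I_j = ∫ φ(w) w^j dw` equals `∫ φ(w) (z-w)^m dw`. -/
noncomputable def bolSum (I : ℕ → ℂ → ℂ) (m : ℕ) (z : ℂ) : ℂ :=
  ∑ j ∈ range (m + 1), (m.choose j : ℂ) * z ^ (m - j) * (-1) ^ j * I j z

theorem bolSum_zero (I : ℕ → ℂ → ℂ) (z : ℂ) : bolSum I 0 z = I 0 z := by
  simp [bolSum]

theorem alternating_choose_sum_complex (m : ℕ) :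
    ∑ j ∈ range (m + 2), ((m + 1).choose j : ℂ) * (-1) ^ j = 0 := by
  have h := Int.alternating_sum_range_choose_of_ne (n := m + 1) (by omega)
  have h2 := congrArg (fun x : ℤ => (x : ℂ)) h
  simp only [Int.cast_sum, Int.cast_mul, Int.cast_pow, Int.cast_neg, Int.cast_one,
    Int.cast_natCast, Int.cast_zero] at h2
  rw [← h2]
  refine Finset.sum_congr rfl fun j _ => ?_
  ring

theorem hasDerivAt_bolSum_zero {φ : ℂ → ℂ} {I : ℕ → ℂ → ℂ} {z : ℂ}
    (hI : HasDerivAt (I 0) (φ z * z ^ 0) z) : HasDerivAt (bolSum I 0) (φ z) z := by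
  have : bolSum I 0 = I 0 := funext fun w => bolSum_zero I w
  rw [this]
  simpa using hI

theorem hasDerivAt_bolSum_succ {φ : ℂ → ℂ} {I : ℕ → ℂ → ℂ} {z : ℂ} (m : ℕ)
    (hI : ∀ j ≤ m + 1, HasDerivAt (I j) (φ z * z ^ j) z) :
    HasDerivAt (bolSum I (m + 1)) ((m + 1 : ℂ) * bolSum I m z) z := by
  have hterm : ∀ j ∈ range (m + 2), HasDerivAt
      (fun w : ℂ => ((m + 1).choose j : ℂ) * w ^ (m + 1 - j) * (-1) ^ j * I j w)
      (((m + 1).choose j : ℂ) * (((m + 1 - j : ℕ) : ℂ) * z ^ (m + 1 - j - 1)) * (-1) ^ j * I j z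
        + ((m + 1).choose j : ℂ) * z ^ (m + 1 - j) * (-1) ^ j * (φ z * z ^ j)) z := by
    intro j hj
    have hj' : j ≤ m + 1 := by
      have := mem_range.mp hj
      omega
    have h1 : HasDerivAt (fun w : ℂ => w ^ (m + 1 - j))
        (((m + 1 - j : ℕ) : ℂ) * z ^ (m + 1 - j - 1)) z := hasDerivAt_pow _ _
    have h2 := ((h1.const_mul ((m + 1).choose j : ℂ)).mul_const ((-1 : ℂ) ^ j)).mul (hI j hj')
    exact h2
  have hsum := HasDerivAt.fun_sum hterm
  have hfun : bolSum I (m + 1) = fun w : ℂ =>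
      ∑ j ∈ range (m + 2), ((m + 1).choose j : ℂ) * w ^ (m + 1 - j) * (-1) ^ j * I j w := by
    funext w
    rfl
  rw [hfun]
  refine hsum.congr_deriv ?_
  rw [Finset.sum_add_distrib]
  have hsecond : ∑ j ∈ range (m + 2),
      ((m + 1).choose j : ℂ) * z ^ (m + 1 - j) * (-1) ^ j * (φ z * z ^ j) = 0 := by
    have : ∀ j ∈ range (m + 2),
        ((m + 1).choose j : ℂ) * z ^ (m + 1 - j) * (-1) ^ j * (φ z * z ^ j)
          = (φ z * z ^ (m + 1)) * (((m + 1).choose j : ℂ) * (-1) ^ j) := by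
      intro j hj
      have hj' : j ≤ m + 1 := by
        have := mem_range.mp hj
        omega
      have hz : z ^ (m + 1) = z ^ (m + 1 - j) * z ^ j := by
        rw [← pow_add, Nat.sub_add_cancel hj']
      rw [hz]
      ring
    rw [Finset.sum_congr rfl this, ← Finset.mul_sum, alternating_choose_sum_complex, mul_zero]
  rw [hsecond, add_zero, Finset.sum_range_succ]
  have hlast : ((m + 1).choose (m + 1) : ℂ) * (((m + 1 - (m + 1) : ℕ) : ℂ)
      * z ^ (m + 1 - (m + 1) - 1)) * (-1) ^ (m + 1) * I (m + 1) z = 0 := by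
    simp
  rw [hlast, add_zero, bolSum, Finset.mul_sum]
  refine Finset.sum_congr rfl fun j hj => ?_
  have hj' : j ≤ m := by
    have := mem_range.mp hj
    omega
  have hchoose : ((m + 1 : ℕ) : ℂ) * (m.choose j : ℂ)
      = ((m + 1).choose j : ℂ) * ((m + 1 - j : ℕ) : ℂ) := by
    have := Nat.choose_mul_succ_eq m j
    have h2 := congrArg (fun x : ℕ => (x : ℂ)) this
    simp only [Nat.cast_mul] at h2
    rw [← h2]
    ring
  have hsub : m + 1 - j - 1 = m - j := by omega
  rw [hsub]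
  push_cast at hchoose
  linear_combination (-(z ^ (m - j) * (-1) ^ j * I j z)) * hchoose

/-- **Bol-type descent.** If `I_j` is a primitive of `φ(z) z^j` on the open set `U` for `j ≤ n`
and the Eichler combination `∑_j C(n,j) z^(n-j) (-1)^j I_j(z)` is constant on `U`, then `φ`
vanishes on `U`. -/
theorem eq_zero_of_bolSum_const {U : Set ℂ} (hU : IsOpen U) (φ : ℂ → ℂ) (I : ℕ → ℂ → ℂ)
    (n : ℕ) (hI : ∀ j ≤ n, ∀ z ∈ U, HasDerivAt (I j) (φ z * z ^ j) z)
    (c : ℂ) (hG : ∀ z ∈ U, bolSum I n z = c) : ∀ z ∈ U, φ z = 0 := by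
  induction n generalizing c with
  | zero =>
    intro z hz
    have h1 : HasDerivAt (bolSum I 0) (φ z) z := hasDerivAt_bolSum_zero (hI 0 le_rfl z hz)
    have h2 : HasDerivAt (bolSum I 0) 0 z := by
      have : bolSum I 0 =ᶠ[nhds z] fun _ => c := by
        filter_upwards [hU.mem_nhds hz] with w hw using hG w hw
      exact (hasDerivAt_const z c).congr_of_eventuallyEq this
    exact h1.unique h2
  | succ m ih =>
    refine ih (fun j hj z hz => hI j (by omega) z hz) 0 fun z hz => ?_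
    have h1 : HasDerivAt (bolSum I (m + 1)) ((m + 1 : ℂ) * bolSum I m z) z :=
      hasDerivAt_bolSum_succ m fun j hj => hI j hj z hz
    have h2 : HasDerivAt (bolSum I (m + 1)) 0 z := by
      have : bolSum I (m + 1) =ᶠ[nhds z] fun _ => c := by
        filter_upwards [hU.mem_nhds hz] with w hw using hG w hw
      exact (hasDerivAt_const z c).congr_of_eventuallyEq this
    have h3 := h1.unique h2
    have hne : (m + 1 : ℂ) ≠ 0 := by
      exact_mod_cast Nat.succ_ne_zero m
    exact (mul_eq_zero.mp h3).resolve_left hne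

end Fermat.Agent.S22
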