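import Mathlib

set_option autoImplicit false

namespace Fermat.Agent.S22

open scoped MatrixGroups ModularForm Manifold
open UpperHalfPlane Matrix.SpecialLinearGroup OnePoint

/-- Package a holomorphic, slash-invariant function which is bounded at `i∞` after slashing by
every element of `SL(2, ℤ)` as a modular form (for an arithmetic subgroup). -/
noncomputable def modularFormOfBounded {𝒢 : Subgroup (GL (Fin 2) ℝ)} [𝒢.IsArithmetic] {k : ℤ}
    (G : ℍ → ℂ) (hol : MDiff G) (hinv : ∀ γ ∈ 𝒢, G ∣[k] γ = G)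
    (hbdd : ∀ d : SL(2, ℤ), IsBoundedAtImInfty (G ∣[k] (mapGL ℝ d))) : ModularForm 𝒢 k where
  toFun := G
  slash_action_eq' := hinv
  holo' := hol
  bdd_at_cusps' {c} hc := by
    have hc' : IsCusp c 𝒮ℒ := (Subgroup.IsArithmetic.isCusp_iff_isCusp_SL2Z 𝒢).mp hc
    exact (isBoundedAt_iff_forall_SL2Z hc').mpr fun γ _ => hbdd γ

@[simp]
theorem coe_modularFormOfBounded {𝒢 : Subgroup (GL (Fin 2) ℝ)} [𝒢.IsArithmetic] {k : ℤ}
    (G : ℍ → ℂ) (hol : MDiff G) (hinv : ∀ γ ∈ 𝒢, G ∣[k] γ = G)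
    (hbdd : ∀ d : SL(2, ℤ), IsBoundedAtImInfty (G ∣[k] (mapGL ℝ d))) :
    ⇑(modularFormOfBounded G hol hinv hbdd) = G := rfl

/-- A holomorphic function on `ℍ` which is slash-invariant of weight `k < 0` under an arithmetic
subgroup and bounded at all cusps vanishes. -/
theorem eq_zero_of_neg_weight_of_bounded {𝒢 : Subgroup (GL (Fin 2) ℝ)} [𝒢.IsArithmetic] {k : ℤ}
    (hk : k < 0) (G : ℍ → ℂ) (hol : MDiff G) (hinv : ∀ γ ∈ 𝒢, G ∣[k] γ = G)
    (hbdd : ∀ d : SL(2, ℤ), IsBoundedAtImInfty (G ∣[k] (mapGL ℝ d))) : G = 0 := by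
  have h := ModularForm.isZero_of_neg_weight hk (modularFormOfBounded G hol hinv hbdd)
  have h2 := congrArg (fun F : ModularForm 𝒢 k => (F : ℍ → ℂ)) h
  simpa using h2

/-- A holomorphic function on `ℍ` which is slash-invariant of weight `0` under an arithmetic
subgroup and bounded at all cusps is constant. -/
theorem eq_const_of_weight_zero_of_bounded {𝒢 : Subgroup (GL (Fin 2) ℝ)} [𝒢.IsArithmetic]
    (G : ℍ → ℂ) (hol : MDiff G) (hinv : ∀ γ ∈ 𝒢, G ∣[(0 : ℤ)] γ = G)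
    (hbdd : ∀ d : SL(2, ℤ), IsBoundedAtImInfty (G ∣[(0 : ℤ)] (mapGL ℝ d))) :
    ∃ c, G = Function.const ℍ c := by
  obtain ⟨c, hc⟩ := ModularForm.eq_const_of_weight_zero (modularFormOfBounded G hol hinv hbdd)
  exact ⟨c, by simpa using hc⟩

end Fermat.Agent.S22
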